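import Mathlib.AlgebraicGeometry.EllipticCurve.Affine.AddSubMap

/-!
# The addition-and-subtraction map on x-coordinates does what it claims

For points `P`, `Q` on a Weierstrass curve over a field, Mathlib's `WeierstrassCurve.addSubMap`
evaluated at `P.sym2x Q` is a nonzero multiple of `(P + Q).sym2x (P - Q)`.
(This is the `TODO` of `Mathlib.AlgebraicGeometry.EllipticCurve.Affine.AddSubMap`.)
-/

set_option autoImplicit false

namespace Fermat.Agent.S52.B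

open WeierstrassCurve MvPolynomial

variable {F : Type*} [Field F] (W : WeierstrassCurve F)

lemma eval_addSubMap_zero (v : Fin 3 → F) :
    eval v (W.addSubMap 0) =
      v 0 ^ 2 - W.b₄ * v 0 * v 2 - W.b₆ * v 1 * v 2 - W.b₈ * v 2 ^ 2 := by
  simp [addSubMap]

lemma eval_addSubMap_one (v : Fin 3 → F) :
    eval v (W.addSubMap 1) =
      2 * v 1 * v 0 + W.b₂ * v 0 * v 2 + W.b₄ * v 1 * v 2 + W.b₆ * v 2 ^ 2 := by
  simp [addSubMap]

lemma eval_addSubMap_two (v : Fin 3 → F) :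
    eval v (W.addSubMap 2) = v 1 ^ 2 - 4 * v 0 * v 2 := by
  simp [addSubMap]

end Fermat.Agent.S52.B

namespace Fermat.Agent.S52.B

open WeierstrassCurve MvPolynomial

variable {F : Type*} [Field F] (W : WeierstrassCurve F)

/-- polynomial identity behind `x(P+Q) + x(P-Q)`. -/
lemma addSub_sum_aux {x₁ x₂ y₁ y₂ : F}
    (h₁ : y₁ ^ 2 + W.a₁ * x₁ * y₁ + W.a₃ * y₁ = x₁ ^ 3 + W.a₂ * x₁ ^ 2 + W.a₄ * x₁ + W.a₆)
    (h₂ : y₂ ^ 2 + W.a₁ * x₂ * y₂ + W.a₃ * y₂ = x₂ ^ 3 + W.a₂ * x₂ ^ 2 + W.a₄ * x₂ + W.a₆) :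
    ((y₁ - y₂) ^ 2 + W.a₁ * (y₁ - y₂) * (x₁ - x₂) - (W.a₂ + x₁ + x₂) * (x₁ - x₂) ^ 2) +
      ((y₁ + y₂ + W.a₁ * x₂ + W.a₃) ^ 2 + W.a₁ * (y₁ + y₂ + W.a₁ * x₂ + W.a₃) * (x₁ - x₂) -
        (W.a₂ + x₁ + x₂) * (x₁ - x₂) ^ 2) =
      2 * (x₁ + x₂) * (x₁ * x₂) + W.b₂ * (x₁ * x₂) + W.b₄ * (x₁ + x₂) + W.b₆ := by
  simp only [WeierstrassCurve.b₂, WeierstrassCurve.b₄, WeierstrassCurve.b₆]
  linear_combination 2 * h₁ + 2 * h₂

/-- polynomial identity behind `x(P+Q) * x(P-Q)`. -/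
lemma addSub_prod_aux {x₁ x₂ y₁ y₂ : F}
    (h₁ : y₁ ^ 2 + W.a₁ * x₁ * y₁ + W.a₃ * y₁ = x₁ ^ 3 + W.a₂ * x₁ ^ 2 + W.a₄ * x₁ + W.a₆)
    (h₂ : y₂ ^ 2 + W.a₁ * x₂ * y₂ + W.a₃ * y₂ = x₂ ^ 3 + W.a₂ * x₂ ^ 2 + W.a₄ * x₂ + W.a₆) :
    ((y₁ - y₂) ^ 2 + W.a₁ * (y₁ - y₂) * (x₁ - x₂) - (W.a₂ + x₁ + x₂) * (x₁ - x₂) ^ 2) *
      ((y₁ + y₂ + W.a₁ * x₂ + W.a₃) ^ 2 + W.a₁ * (y₁ + y₂ + W.a₁ * x₂ + W.a₃) * (x₁ - x₂) -
        (W.a₂ + x₁ + x₂) * (x₁ - x₂) ^ 2) =
      (x₁ - x₂) ^ 2 * ((x₁ * x₂) ^ 2 - W.b₄ * (x₁ * x₂) - W.b₆ * (x₁ + x₂) - W.b₈) := by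
  simp only [WeierstrassCurve.b₄, WeierstrassCurve.b₆, WeierstrassCurve.b₈]
  linear_combination
    (-x₁^3 + 2*x₁^2*x₂ - x₁^2*W.a₂ + 2*x₁*x₂^2 + x₁*x₂*W.a₁^2 + 4*x₁*x₂*W.a₂ + x₁*y₁*W.a₁
      + x₁*W.a₁*W.a₃ + x₁*W.a₄ - 2*x₂^3 - x₂^2*W.a₁^2 - 2*x₂^2*W.a₂ - 2*x₂*y₂*W.a₁ - x₂*W.a₁*W.a₃
      + y₁^2 + y₁*W.a₃ - 2*y₂^2 - 2*y₂*W.a₃ + W.a₆) * h₁
    + (-4*x₁^3 + 2*x₁^2*x₂ - x₁^2*W.a₁^2 - 4*x₁^2*W.a₂ + 2*x₁*x₂^2 + x₁*x₂*W.a₁^2 + 4*x₁*x₂*W.a₂
      - x₁*W.a₁*W.a₃ - 2*x₁*W.a₄ - x₂^3 - x₂^2*W.a₂ + x₂*y₂*W.a₁ + x₂*W.a₁*W.a₃ + x₂*W.a₄ + y₂^2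
      + y₂*W.a₃ - W.a₆) * h₂

/-- duplication: numerator identity. -/
lemma dup_num_aux {x y : F}
    (h : y ^ 2 + W.a₁ * x * y + W.a₃ * y = x ^ 3 + W.a₂ * x ^ 2 + W.a₄ * x + W.a₆) :
    (3 * x ^ 2 + 2 * W.a₂ * x + W.a₄ - W.a₁ * y) ^ 2 +
        W.a₁ * (3 * x ^ 2 + 2 * W.a₂ * x + W.a₄ - W.a₁ * y) * (2 * y + W.a₁ * x + W.a₃) -
        (W.a₂ + 2 * x) * (2 * y + W.a₁ * x + W.a₃) ^ 2 =
      x ^ 4 - W.b₄ * x ^ 2 - 2 * W.b₆ * x - W.b₈ := by
  simp only [WeierstrassCurve.b₄, WeierstrassCurve.b₆, WeierstrassCurve.b₈]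
  linear_combination (-8 * x - W.a₁ ^ 2 - 4 * W.a₂) * h

/-- duplication: denominator identity. -/
lemma dup_den_aux {x y : F}
    (h : y ^ 2 + W.a₁ * x * y + W.a₃ * y = x ^ 3 + W.a₂ * x ^ 2 + W.a₄ * x + W.a₆) :
    (2 * y + W.a₁ * x + W.a₃) ^ 2 = 4 * x ^ 3 + W.b₂ * x ^ 2 + 2 * W.b₄ * x + W.b₆ := by
  simp only [WeierstrassCurve.b₂, WeierstrassCurve.b₄, WeierstrassCurve.b₆]
  linear_combination 4 * h

end Fermat.Agent.S52.B

namespace Fermat.Agent.S52.B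

open WeierstrassCurve MvPolynomial WeierstrassCurve.Affine

variable {F : Type*} [Field F] [DecidableEq F] (W : WeierstrassCurve F)

lemma addX_slope_of_X_ne {x₁ x₂ y₁ y₂ : F} (hx : x₁ ≠ x₂) :
    W.toAffine.addX x₁ x₂ (W.toAffine.slope x₁ x₂ y₁ y₂) =
      ((y₁ - y₂) ^ 2 + W.a₁ * (y₁ - y₂) * (x₁ - x₂) - (W.a₂ + x₁ + x₂) * (x₁ - x₂) ^ 2) /
        (x₁ - x₂) ^ 2 := by
  have hd : x₁ - x₂ ≠ 0 := sub_ne_zero.mpr hx
  rw [Affine.slope_of_X_ne hx, Affine.addX]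
  dsimp only [WeierstrassCurve.toAffine]
  field_simp
  ring

lemma addX_slope_of_Y_ne {x y : F} (hy : y ≠ W.toAffine.negY x y) :
    W.toAffine.addX x x (W.toAffine.slope x x y y) =
      ((3 * x ^ 2 + 2 * W.a₂ * x + W.a₄ - W.a₁ * y) ^ 2 +
        W.a₁ * (3 * x ^ 2 + 2 * W.a₂ * x + W.a₄ - W.a₁ * y) * (2 * y + W.a₁ * x + W.a₃) -
        (W.a₂ + 2 * x) * (2 * y + W.a₁ * x + W.a₃) ^ 2) / (2 * y + W.a₁ * x + W.a₃) ^ 2 := by
  have hd : 2 * y + W.a₁ * x + W.a₃ ≠ 0 := by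
    intro h
    apply hy
    rw [Affine.negY]
    linear_combination h
  have hd' : y - W.toAffine.negY x y = 2 * y + W.a₁ * x + W.a₃ := by
    rw [Affine.negY]; ring
  rw [Affine.slope_of_Y_ne rfl hy, Affine.addX, hd']
  dsimp only [WeierstrassCurve.toAffine]
  generalize 2 * y + W.a₁ * x + W.a₃ = ψ at hd ⊢
  generalize 3 * x ^ 2 + 2 * W.a₂ * x + W.a₄ - W.a₁ * y = n
  field_simp
  ring

end Fermat.Agent.S52.B

namespace Fermat.Agent.S52.B

open WeierstrassCurve MvPolynomial WeierstrassCurve.Affine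

variable {F : Type*} [Field F] [DecidableEq F] (W : WeierstrassCurve F)

omit [DecidableEq F] in
lemma mul_div_self_aux {a b : F} (hb : b ≠ 0) : b * (a / b) = a := by
  field_simp

/-- the doubling case of `addSubMap_eval_sym2x`. -/
lemma addSubMap_eval_sym2x_self (P : W.toAffine.Point) :
    ∃ c : F, c ≠ 0 ∧ ∀ i : Fin 3,
      eval (P.sym2x P) (W.addSubMap i) = c * (P + P).sym2x 0 i := by
  match P with
  | 0 =>
    refine ⟨1, one_ne_zero, fun i => ?_⟩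
    fin_cases i <;>
      simp [eval_addSubMap_zero, eval_addSubMap_one, eval_addSubMap_two]
  | .some x y h =>
    have e := (Affine.equation_iff (W := W.toAffine) x y).mp h.1
    dsimp only [WeierstrassCurve.toAffine] at e
    have hnum := dup_num_aux W e
    have hden := dup_den_aux W e
    by_cases hy : y = W.toAffine.negY x y
    · -- 2-torsion
      have hψ : 2 * y + W.a₁ * x + W.a₃ = 0 := by
        rw [Affine.negY] at hy
        dsimp only [WeierstrassCurve.toAffine] at hy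
        linear_combination hy
      have hn : 3 * x ^ 2 + 2 * W.a₂ * x + W.a₄ - W.a₁ * y ≠ 0 := by
        have h' := ((Affine.nonsingular_iff' (W := W.toAffine) x y).mp h).2
        dsimp only [WeierstrassCurve.toAffine] at h'
        rcases h' with h' | h'
        · intro h0; apply h'; linear_combination -h0
        · exact absurd hψ h'
      rw [hψ] at hnum hden
      refine ⟨(3 * x ^ 2 + 2 * W.a₂ * x + W.a₄ - W.a₁ * y) ^ 2, pow_ne_zero 2 hn, fun i => ?_⟩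
      rw [Point.add_self_of_Y_eq hy, Point.sym2x_zero_zero, Point.sym2x_some_some]
      fin_cases i
      · simp only [eval_addSubMap_zero, Fin.zero_eta, Fin.isValue, Matrix.cons_val_zero,
          Matrix.cons_val_one, Matrix.cons_val]
        linear_combination -hnum
      · simp only [eval_addSubMap_one, Fin.mk_one, Fin.isValue, Matrix.cons_val_zero,
          Matrix.cons_val_one, Matrix.cons_val]
        linear_combination -hden
      · simp only [eval_addSubMap_two, Fin.reduceFinMk, Fin.isValue, Matrix.cons_val_zero,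
          Matrix.cons_val_one, Matrix.cons_val]
        ring
    · have hψ : 2 * y + W.a₁ * x + W.a₃ ≠ 0 := by
        intro h0
        apply hy
        rw [Affine.negY]
        dsimp only [WeierstrassCurve.toAffine]
        linear_combination h0
      refine ⟨(2 * y + W.a₁ * x + W.a₃) ^ 2, pow_ne_zero 2 hψ, fun i => ?_⟩
      rw [Point.add_self_of_Y_ne hy, Point.sym2x_some_zero, Point.sym2x_some_some,
        addX_slope_of_Y_ne W hy, hnum]
      fin_cases i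
      · simp only [eval_addSubMap_zero, Fin.zero_eta, Fin.isValue, Matrix.cons_val_zero,
          Matrix.cons_val_one, Matrix.cons_val]
        rw [mul_div_self_aux (pow_ne_zero 2 hψ)]
        ring
      · simp only [eval_addSubMap_one, Fin.mk_one, Fin.isValue, Matrix.cons_val_zero,
          Matrix.cons_val_one, Matrix.cons_val]
        linear_combination -hden
      · simp only [eval_addSubMap_two, Fin.reduceFinMk, Fin.isValue, Matrix.cons_val_zero,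
          Matrix.cons_val_one, Matrix.cons_val]
        ring

/-- **The addition-and-subtraction map on x-coordinates**: Mathlib's `addSubMap` sends
`P.sym2x Q` to a nonzero multiple of `(P + Q).sym2x (P - Q)`. -/
theorem addSubMap_eval_sym2x (P Q : W.toAffine.Point) :
    ∃ c : F, c ≠ 0 ∧ ∀ i : Fin 3,
      eval (P.sym2x Q) (W.addSubMap i) = c * (P + Q).sym2x (P - Q) i := by
  match P, Q with
  | 0, 0 =>
    refine ⟨1, one_ne_zero, fun i => ?_⟩
    fin_cases i <;>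
      simp [eval_addSubMap_zero, eval_addSubMap_one, eval_addSubMap_two]
  | 0, .some x y h =>
    refine ⟨1, one_ne_zero, fun i => ?_⟩
    rw [zero_add, zero_sub, Point.sym2x_neg_right, Point.sym2x_zero_some, Point.sym2x_some_some]
    fin_cases i <;>
      simp [eval_addSubMap_zero, eval_addSubMap_one, eval_addSubMap_two] <;> ring
  | .some x y h, 0 =>
    refine ⟨1, one_ne_zero, fun i => ?_⟩
    rw [add_zero, sub_zero, Point.sym2x_some_zero, Point.sym2x_some_some]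
    fin_cases i <;>
      simp [eval_addSubMap_zero, eval_addSubMap_one, eval_addSubMap_two] <;> ring
  | .some x₁ y₁ h₁, .some x₂ y₂ h₂ =>
    have e₁ := (Affine.equation_iff (W := W.toAffine) x₁ y₁).mp h₁.1
    have e₂ := (Affine.equation_iff (W := W.toAffine) x₂ y₂).mp h₂.1
    dsimp only [WeierstrassCurve.toAffine] at e₁ e₂
    by_cases hx : x₁ = x₂
    · obtain ⟨c, hc, H⟩ := addSubMap_eval_sym2x_self W (Point.some x₁ y₁ h₁)
      refine ⟨c, hc, fun i => ?_⟩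
      rcases (Point.X_eq_iff (h₁ := h₂) (h₂ := h₁)).mp hx.symm with hQ | hQ
      · rw [hQ, sub_self]
        exact H i
      · rw [hQ, Point.sym2x_neg_right, add_neg_cancel, sub_neg_eq_add, Point.sym2x_comm 0]
        exact H i
    · have hd : x₁ - x₂ ≠ 0 := sub_ne_zero.mpr hx
      have hsum := addSub_sum_aux W e₁ e₂
      have hprod := addSub_prod_aux W e₁ e₂
      have hneg : y₁ - W.toAffine.negY x₂ y₂ = y₁ + y₂ + W.a₁ * x₂ + W.a₃ := by
        rw [Affine.negY]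
        dsimp only [WeierstrassCurve.toAffine]
        ring
      refine ⟨(x₁ - x₂) ^ 2, pow_ne_zero 2 hd, fun i => ?_⟩
      rw [Point.add_of_X_ne hx, sub_eq_add_neg (Point.some x₁ y₁ h₁), Point.neg_some,
        Point.add_of_X_ne hx,
        Point.sym2x_some_some, Point.sym2x_some_some, addX_slope_of_X_ne W hx,
        addX_slope_of_X_ne W hx, hneg]
      generalize (y₁ - y₂) ^ 2 + W.a₁ * (y₁ - y₂) * (x₁ - x₂) -
        (W.a₂ + x₁ + x₂) * (x₁ - x₂) ^ 2 = n₃ at hsum hprod ⊢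
      generalize (y₁ + y₂ + W.a₁ * x₂ + W.a₃) ^ 2 +
        W.a₁ * (y₁ + y₂ + W.a₁ * x₂ + W.a₃) * (x₁ - x₂) -
        (W.a₂ + x₁ + x₂) * (x₁ - x₂) ^ 2 = n₄ at hsum hprod ⊢
      fin_cases i
      · simp only [eval_addSubMap_zero, Fin.zero_eta, Fin.isValue, Matrix.cons_val_zero,
          Matrix.cons_val_one, Matrix.cons_val]
        have : (x₁ - x₂) ^ 2 * (n₃ / (x₁ - x₂) ^ 2 * (n₄ / (x₁ - x₂) ^ 2)) =
            n₃ * n₄ / (x₁ - x₂) ^ 2 := by
          field_simp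
        rw [this, hprod, mul_div_assoc, mul_div_self_aux (pow_ne_zero 2 hd)]
        ring
      · simp only [eval_addSubMap_one, Fin.mk_one, Fin.isValue, Matrix.cons_val_zero,
          Matrix.cons_val_one, Matrix.cons_val]
        have : (x₁ - x₂) ^ 2 * (n₃ / (x₁ - x₂) ^ 2 + n₄ / (x₁ - x₂) ^ 2) = n₃ + n₄ := by
          field_simp
        rw [this, hsum]
        ring
      · simp only [eval_addSubMap_two, Fin.reduceFinMk, Fin.isValue, Matrix.cons_val_zero,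
          Matrix.cons_val_one, Matrix.cons_val]
        ring

end Fermat.Agent.S52.B
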