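import Mathlib

/-!
# The parallelogram law for the "height" (degree) of `x`-coordinates over a rational function field

(helper7515, project S52, input for piece B1.)

For the short Weierstrass curve `y² = x³ + A x + B` over a field `k` (`2 ≠ 0`, `4A³ + 27B² ≠ 0`) and
`x`-coordinates written projectively as coprime pairs of polynomials `(a : b)`, the three
bi-quadratic forms `wP, wS, wD` (numerators of `x₃ x₄`, `x₃ + x₄` and the common denominator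
`(x₁ - x₂)²`) have no common zero.  Consequently, if `(wP : wS : wD)` is proportional to
`(a₃ a₄ : a₃ b₄ + a₄ b₃ : b₃ b₄)` then
`pht a₃ b₃ + pht a₄ b₄ = 2 * pht a₁ b₁ + 2 * pht a₂ b₂`, where `pht a b = max (deg a) (deg b)`.
-/

set_option autoImplicit false

namespace Fermat.Agent.S52.B.H7515

open Polynomial

/-! ## The forms -/

section forms

variable {R : Type*} [CommRing R]

/-- product form: `x₃ x₄ = wP / wD`. -/
def wP (A B a₁ b₁ a₂ b₂ : R) : R :=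
  (a₁ * a₂ - A * (b₁ * b₂)) ^ 2 - 4 * B * (a₁ * b₂ + a₂ * b₁) * (b₁ * b₂)

/-- sum form: `x₃ + x₄ = wS / wD`. -/
def wS (A B a₁ b₁ a₂ b₂ : R) : R :=
  2 * (a₁ * b₂ + a₂ * b₁) * (a₁ * a₂ + A * (b₁ * b₂)) + 4 * B * (b₁ * b₂) ^ 2

/-- difference form: `(x₁ - x₂)² = wD / (b₁ b₂)²`. -/
def wD (a₁ b₁ a₂ b₂ : R) : R := (a₁ * b₂ - a₂ * b₁) ^ 2

lemma map_wP {S : Type*} [CommRing S] (φ : R →+* S) (A B a₁ b₁ a₂ b₂ : R) :
    φ (wP A B a₁ b₁ a₂ b₂) = wP (φ A) (φ B) (φ a₁) (φ b₁) (φ a₂) (φ b₂) := by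
  have h4 : φ 4 = 4 := map_ofNat φ 4
  simp [wP, h4]

lemma map_wS {S : Type*} [CommRing S] (φ : R →+* S) (A B a₁ b₁ a₂ b₂ : R) :
    φ (wS A B a₁ b₁ a₂ b₂) = wS (φ A) (φ B) (φ a₁) (φ b₁) (φ a₂) (φ b₂) := by
  have h4 : φ 4 = 4 := map_ofNat φ 4
  have h2 : φ 2 = 2 := map_ofNat φ 2
  simp [wS, h4, h2]

lemma map_wD {S : Type*} [CommRing S] (φ : R →+* S) (a₁ b₁ a₂ b₂ : R) :
    φ (wD a₁ b₁ a₂ b₂) = wD (φ a₁) (φ b₁) (φ a₂) (φ b₂) := by
  simp [wD]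

end forms

/-! ## No common zero over a field -/

section field

variable {κ : Type*} [Field κ]

lemma no_common_zero {A B : κ} (h2 : (2 : κ) ≠ 0) (hΔ : 4 * A ^ 3 + 27 * B ^ 2 ≠ 0)
    {a₁ b₁ a₂ b₂ : κ} (h₁ : a₁ ≠ 0 ∨ b₁ ≠ 0) (h₂ : a₂ ≠ 0 ∨ b₂ ≠ 0)
    (hP : wP A B a₁ b₁ a₂ b₂ = 0) (hS : wS A B a₁ b₁ a₂ b₂ = 0) (hD : wD a₁ b₁ a₂ b₂ = 0) :
    False := by
  have hD' : a₁ * b₂ = a₂ * b₁ := by
    have h := (pow_eq_zero_iff (two_ne_zero)).mp hD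
    exact sub_eq_zero.mp h
  by_cases hb₁ : b₁ = 0
  · have ha₁ : a₁ ≠ 0 := h₁.resolve_right (not_not.mpr hb₁)
    have hb₂ : b₂ = 0 := by
      rw [hb₁, mul_zero] at hD'
      exact (mul_eq_zero.mp hD').resolve_left ha₁
    have ha₂ : a₂ ≠ 0 := h₂.resolve_right (not_not.mpr hb₂)
    simp only [wP, hb₁, hb₂, mul_zero, sub_zero, add_zero] at hP
    exact mul_ne_zero ha₁ ha₂ ((pow_eq_zero_iff (two_ne_zero)).mp hP)
  · have hb₂ : b₂ ≠ 0 := by
      rintro rfl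
      rw [mul_zero] at hD'
      have ha₂ : a₂ = 0 := (mul_eq_zero.mp hD'.symm).resolve_right hb₁
      exact h₂.elim (fun h => h ha₂) (fun h => h rfl)
    obtain ⟨t, ht₁⟩ : ∃ t, a₁ = t * b₁ := ⟨a₁ / b₁, by field_simp⟩
    have ht₂ : a₂ = t * b₂ := by
      have h : a₂ * b₁ = t * b₂ * b₁ := by rw [← hD', ht₁]; ring
      exact mul_right_cancel₀ hb₁ h
    subst ht₁ ht₂
    have hbb : (b₁ * b₂) ^ 2 ≠ 0 := pow_ne_zero 2 (mul_ne_zero hb₁ hb₂)
    have hf : t ^ 3 + A * t + B = 0 := by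
      have e : wS A B (t * b₁) b₁ (t * b₂) b₂ = 4 * (b₁ * b₂) ^ 2 * (t ^ 3 + A * t + B) := by
        simp only [wS]; ring
      rw [e] at hS
      have h4 : (4 : κ) ≠ 0 := by
        have h22 : (4 : κ) = 2 * 2 := by norm_num
        rw [h22]
        exact mul_ne_zero h2 h2
      exact (mul_eq_zero.mp hS).resolve_left (mul_ne_zero h4 hbb)
    have hg : t ^ 4 - 2 * A * t ^ 2 - 8 * B * t + A ^ 2 = 0 := by
      have e : wP A B (t * b₁) b₁ (t * b₂) b₂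
          = (b₁ * b₂) ^ 2 * (t ^ 4 - 2 * A * t ^ 2 - 8 * B * t + A ^ 2) := by
        simp only [wP]; ring
      rw [e] at hP
      exact (mul_eq_zero.mp hP).resolve_left hbb
    apply hΔ
    linear_combination (3 * t ^ 2 + 4 * A) * hg - (3 * t ^ 3 - 5 * A * t - 27 * B) * hf

lemma no_common_zero_prod {a₃ b₃ a₄ b₄ : κ} (h₃ : a₃ ≠ 0 ∨ b₃ ≠ 0) (h₄ : a₄ ≠ 0 ∨ b₄ ≠ 0)
    (h1 : a₃ * a₄ = 0) (h2 : a₃ * b₄ + a₄ * b₃ = 0) (h3 : b₃ * b₄ = 0) : False := by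
  rcases mul_eq_zero.mp h1 with ha | ha
  · have hb₃ : b₃ ≠ 0 := h₃.resolve_left (not_not.mpr ha)
    have hb₄ : b₄ = 0 := (mul_eq_zero.mp h3).resolve_left hb₃
    have ha₄ : a₄ ≠ 0 := h₄.resolve_right (not_not.mpr hb₄)
    rw [ha, zero_mul, zero_add] at h2
    exact mul_ne_zero ha₄ hb₃ h2
  · have hb₄ : b₄ ≠ 0 := h₄.resolve_left (not_not.mpr ha)
    have hb₃ : b₃ = 0 := (mul_eq_zero.mp h3).resolve_right hb₄
    have ha₃ : a₃ ≠ 0 := h₃.resolve_right (not_not.mpr hb₃)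
    rw [ha, zero_mul, add_zero] at h2
    exact mul_ne_zero ha₃ hb₄ h2

end field

/-! ## Unimodularity over a commutative ring -/

section ring

variable {R : Type*} [CommRing R]

lemma exists_combo_of_forall_maximal (x y z : R)
    (h : ∀ m : Ideal R, m.IsMaximal → ¬ (x ∈ m ∧ y ∈ m ∧ z ∈ m)) :
    ∃ α β γ : R, α * x + β * y + γ * z = 1 := by
  have hItop : Ideal.span {x, y, z} = (⊤ : Ideal R) := by
    by_contra hne
    obtain ⟨m, hm, hIm⟩ := Ideal.exists_le_maximal _ hne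
    exact h m hm ⟨hIm (Ideal.subset_span (by simp)), hIm (Ideal.subset_span (by simp)),
      hIm (Ideal.subset_span (by simp))⟩
  have h1 : (1 : R) ∈ Ideal.span {x, y, z} := by rw [hItop]; exact Submodule.mem_top
  obtain ⟨α, w, hw, h1'⟩ := Ideal.mem_span_insert.mp h1
  obtain ⟨β, γ, hβγ⟩ := Ideal.mem_span_pair.mp hw
  exact ⟨α, β, γ, by rw [h1', ← hβγ]; ring⟩

lemma quot_ne_of_isCoprime (m : Ideal R) (hm : m.IsMaximal) {a b : R} (h : IsCoprime a b) :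
    Ideal.Quotient.mk m a ≠ 0 ∨ Ideal.Quotient.mk m b ≠ 0 := by
  obtain ⟨u, v, huv⟩ := h
  by_contra hcon
  rw [not_or, not_not, not_not] at hcon
  have h1 : Ideal.Quotient.mk m (u * a + v * b) = 0 := by
    rw [map_add, map_mul, map_mul, hcon.1, hcon.2, mul_zero, mul_zero, add_zero]
  rw [huv, map_one] at h1
  have h2 : (1 : R) ∈ m := Ideal.Quotient.eq_zero_iff_mem.mp (by rw [map_one]; exact h1)
  exact hm.ne_top ((Ideal.eq_top_iff_one m).mpr h2)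

lemma forms_unimodular {A B : R} (h2 : IsUnit (2 : R)) (hΔ : IsUnit (4 * A ^ 3 + 27 * B ^ 2))
    {a₁ b₁ a₂ b₂ : R} (h₁ : IsCoprime a₁ b₁) (h₂ : IsCoprime a₂ b₂) :
    ∃ α β γ : R, α * wP A B a₁ b₁ a₂ b₂ + β * wS A B a₁ b₁ a₂ b₂ + γ * wD a₁ b₁ a₂ b₂ = 1 := by
  apply exists_combo_of_forall_maximal
  rintro m hm ⟨hP, hS, hD⟩
  let _ := Ideal.Quotient.field m
  have hP' := Ideal.Quotient.eq_zero_iff_mem.mpr hP
  have hS' := Ideal.Quotient.eq_zero_iff_mem.mpr hS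
  have hD' := Ideal.Quotient.eq_zero_iff_mem.mpr hD
  rw [map_wP] at hP'
  rw [map_wS] at hS'
  rw [map_wD] at hD'
  have h2' : (2 : R ⧸ m) ≠ 0 := by
    have h := (h2.map (Ideal.Quotient.mk m)).ne_zero
    rwa [map_ofNat] at h
  have hΔ' : 4 * (Ideal.Quotient.mk m A) ^ 3 + 27 * (Ideal.Quotient.mk m B) ^ 2 ≠ 0 := by
    have h := (hΔ.map (Ideal.Quotient.mk m)).ne_zero
    have h4 : Ideal.Quotient.mk m 4 = 4 := map_ofNat _ 4
    have h27 : Ideal.Quotient.mk m 27 = 27 := map_ofNat _ 27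
    rwa [map_add, map_mul, map_mul, map_pow, map_pow, h4, h27] at h
  exact no_common_zero h2' hΔ' (quot_ne_of_isCoprime m hm h₁) (quot_ne_of_isCoprime m hm h₂)
    hP' hS' hD'

lemma prod_unimodular {a₃ b₃ a₄ b₄ : R} (h₃ : IsCoprime a₃ b₃) (h₄ : IsCoprime a₄ b₄) :
    ∃ α β γ : R, α * (a₃ * a₄) + β * (a₃ * b₄ + a₄ * b₃) + γ * (b₃ * b₄) = 1 := by
  apply exists_combo_of_forall_maximal
  rintro m hm ⟨h1, h2, h3⟩
  let _ := Ideal.Quotient.field m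
  have h1' := Ideal.Quotient.eq_zero_iff_mem.mpr h1
  have h2' := Ideal.Quotient.eq_zero_iff_mem.mpr h2
  have h3' := Ideal.Quotient.eq_zero_iff_mem.mpr h3
  rw [map_mul] at h1' h3'
  rw [map_add, map_mul, map_mul] at h2'
  exact no_common_zero_prod (quot_ne_of_isCoprime m hm h₃) (quot_ne_of_isCoprime m hm h₄)
    h1' h2' h3'

end ring

/-! ## Degrees -/

section degree

variable {k : Type*} [Field k]

/-- projective height of a pair of polynomials -/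
def pht (a b : k[X]) : ℕ := max a.natDegree b.natDegree

/-- maximal degree of a triple of polynomials -/
def tdeg (p q r : k[X]) : ℕ := max p.natDegree (max q.natDegree r.natDegree)

lemma natDegree_le_pht_left (a b : k[X]) : a.natDegree ≤ pht a b := le_max_left _ _

lemma natDegree_le_pht_right (a b : k[X]) : b.natDegree ≤ pht a b := le_max_right _ _

lemma ne_of_isCoprime {a b : k[X]} (h : IsCoprime a b) : a ≠ 0 ∨ b ≠ 0 := by
  by_contra hcon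
  rw [not_or, not_not, not_not] at hcon
  rw [hcon.1, hcon.2, isCoprime_zero_left] at h
  exact not_isUnit_zero h

lemma top_ne {a b : k[X]} (h : a ≠ 0 ∨ b ≠ 0) :
    a.coeff (pht a b) ≠ 0 ∨ b.coeff (pht a b) ≠ 0 := by
  unfold pht
  rcases le_total a.natDegree b.natDegree with hle | hle
  · rw [max_eq_right hle]
    by_cases hb : b = 0
    · subst hb
      have ha : a ≠ 0 := h.resolve_right (not_not.mpr rfl)
      rw [natDegree_zero] at hle ⊢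
      have h0 : a.natDegree = 0 := Nat.le_zero.mp hle
      left
      rw [← h0, coeff_natDegree]
      exact leadingCoeff_ne_zero.mpr ha
    · right
      rw [coeff_natDegree]
      exact leadingCoeff_ne_zero.mpr hb
  · rw [max_eq_left hle]
    by_cases ha : a = 0
    · subst ha
      have hb : b ≠ 0 := h.resolve_left (not_not.mpr rfl)
      rw [natDegree_zero] at hle ⊢
      have h0 : b.natDegree = 0 := Nat.le_zero.mp hle
      right
      rw [← h0, coeff_natDegree]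
      exact leadingCoeff_ne_zero.mpr hb
    · left
      rw [coeff_natDegree]
      exact leadingCoeff_ne_zero.mpr ha

lemma tdeg_eq_of_top {p q r : k[X]} {n : ℕ} (hp : p.natDegree ≤ n) (hq : q.natDegree ≤ n)
    (hr : r.natDegree ≤ n) (h : ¬ (p.coeff n = 0 ∧ q.coeff n = 0 ∧ r.coeff n = 0)) :
    tdeg p q r = n := by
  apply le_antisymm (max_le hp (max_le hq hr))
  by_contra hlt
  rw [not_le] at hlt
  apply h
  have hp' : p.natDegree < n := lt_of_le_of_lt (le_max_left _ _) hlt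
  have hq' : q.natDegree < n :=
    lt_of_le_of_lt ((le_max_left _ _).trans (le_max_right _ _)) hlt
  have hr' : r.natDegree < n :=
    lt_of_le_of_lt ((le_max_right _ _).trans (le_max_right _ _)) hlt
  exact ⟨coeff_eq_zero_of_natDegree_lt hp', coeff_eq_zero_of_natDegree_lt hq',
    coeff_eq_zero_of_natDegree_lt hr'⟩

lemma tdeg_prod {a₃ b₃ a₄ b₄ : k[X]} (h₃ : a₃ ≠ 0 ∨ b₃ ≠ 0) (h₄ : a₄ ≠ 0 ∨ b₄ ≠ 0) :
    tdeg (a₃ * a₄) (a₃ * b₄ + a₄ * b₃) (b₃ * b₄) = pht a₃ b₃ + pht a₄ b₄ := by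
  have ha₃ := natDegree_le_pht_left a₃ b₃
  have hb₃ := natDegree_le_pht_right a₃ b₃
  have ha₄ := natDegree_le_pht_left a₄ b₄
  have hb₄ := natDegree_le_pht_right a₄ b₄
  have h43 : (a₄ * b₃).natDegree ≤ pht a₃ b₃ + pht a₄ b₄ := by
    rw [add_comm]
    exact natDegree_mul_le_of_le ha₄ hb₃
  have c43 : (a₄ * b₃).coeff (pht a₃ b₃ + pht a₄ b₄)
      = a₄.coeff (pht a₄ b₄) * b₃.coeff (pht a₃ b₃) := by
    rw [add_comm]
    exact coeff_mul_add_eq_of_natDegree_le ha₄ hb₃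
  apply tdeg_eq_of_top
  · exact natDegree_mul_le_of_le ha₃ ha₄
  · exact natDegree_add_le_of_degree_le (natDegree_mul_le_of_le ha₃ hb₄) h43
  · exact natDegree_mul_le_of_le hb₃ hb₄
  · rintro ⟨h1, h2, h3⟩
    rw [coeff_mul_add_eq_of_natDegree_le ha₃ ha₄] at h1
    rw [coeff_add, coeff_mul_add_eq_of_natDegree_le ha₃ hb₄, c43] at h2
    rw [coeff_mul_add_eq_of_natDegree_le hb₃ hb₄] at h3
    exact no_common_zero_prod (top_ne h₃) (top_ne h₄) h1 h2 h3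

lemma C_four_mul (B : k) : (4 : k[X]) * C B = C (4 * B) := by
  rw [map_mul]
  congr 1

lemma top_forms {a₁ b₁ a₂ b₂ : k[X]} {d₁ d₂ : ℕ} (ha₁ : a₁.natDegree ≤ d₁)
    (hb₁ : b₁.natDegree ≤ d₁) (ha₂ : a₂.natDegree ≤ d₂) (hb₂ : b₂.natDegree ≤ d₂) (A B : k) :
    ((wP (C A) (C B) a₁ b₁ a₂ b₂).natDegree ≤ (d₁ + d₂) + (d₁ + d₂) ∧
      (wP (C A) (C B) a₁ b₁ a₂ b₂).coeff ((d₁ + d₂) + (d₁ + d₂))
        = wP A B (a₁.coeff d₁) (b₁.coeff d₁) (a₂.coeff d₂) (b₂.coeff d₂)) ∧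
    ((wS (C A) (C B) a₁ b₁ a₂ b₂).natDegree ≤ (d₁ + d₂) + (d₁ + d₂) ∧
      (wS (C A) (C B) a₁ b₁ a₂ b₂).coeff ((d₁ + d₂) + (d₁ + d₂))
        = wS A B (a₁.coeff d₁) (b₁.coeff d₁) (a₂.coeff d₂) (b₂.coeff d₂)) ∧
    ((wD a₁ b₁ a₂ b₂).natDegree ≤ (d₁ + d₂) + (d₁ + d₂) ∧
      (wD a₁ b₁ a₂ b₂).coeff ((d₁ + d₂) + (d₁ + d₂))
        = wD (a₁.coeff d₁) (b₁.coeff d₁) (a₂.coeff d₂) (b₂.coeff d₂)) := by
  -- the basic products
  have hs : (a₁ * a₂).natDegree ≤ d₁ + d₂ := natDegree_mul_le_of_le ha₁ ha₂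
  have cs : (a₁ * a₂).coeff (d₁ + d₂) = a₁.coeff d₁ * a₂.coeff d₂ :=
    coeff_mul_add_eq_of_natDegree_le ha₁ ha₂
  have hu : (b₁ * b₂).natDegree ≤ d₁ + d₂ := natDegree_mul_le_of_le hb₁ hb₂
  have cu : (b₁ * b₂).coeff (d₁ + d₂) = b₁.coeff d₁ * b₂.coeff d₂ :=
    coeff_mul_add_eq_of_natDegree_le hb₁ hb₂
  have h12 : (a₁ * b₂).natDegree ≤ d₁ + d₂ := natDegree_mul_le_of_le ha₁ hb₂
  have c12 : (a₁ * b₂).coeff (d₁ + d₂) = a₁.coeff d₁ * b₂.coeff d₂ :=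
    coeff_mul_add_eq_of_natDegree_le ha₁ hb₂
  have h21 : (a₂ * b₁).natDegree ≤ d₁ + d₂ := by
    rw [add_comm]
    exact natDegree_mul_le_of_le ha₂ hb₁
  have c21 : (a₂ * b₁).coeff (d₁ + d₂) = a₂.coeff d₂ * b₁.coeff d₁ := by
    rw [add_comm]
    exact coeff_mul_add_eq_of_natDegree_le ha₂ hb₁
  have ht : (a₁ * b₂ + a₂ * b₁).natDegree ≤ d₁ + d₂ := natDegree_add_le_of_degree_le h12 h21
  have ct : (a₁ * b₂ + a₂ * b₁).coeff (d₁ + d₂)
      = a₁.coeff d₁ * b₂.coeff d₂ + a₂.coeff d₂ * b₁.coeff d₁ := by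
    rw [coeff_add, c12, c21]
  have hAu : (C A * (b₁ * b₂)).natDegree ≤ d₁ + d₂ := (natDegree_C_mul_le _ _).trans hu
  have cAu : (C A * (b₁ * b₂)).coeff (d₁ + d₂) = A * (b₁.coeff d₁ * b₂.coeff d₂) := by
    rw [coeff_C_mul, cu]
  refine ⟨?_, ?_, ?_⟩
  · -- wP
    have h1 : (a₁ * a₂ - C A * (b₁ * b₂)).natDegree ≤ d₁ + d₂ := by
      have := natDegree_sub_le_of_le hs hAu
      rwa [max_self] at this
    have c1 : (a₁ * a₂ - C A * (b₁ * b₂)).coeff (d₁ + d₂)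
        = a₁.coeff d₁ * a₂.coeff d₂ - A * (b₁.coeff d₁ * b₂.coeff d₂) := by
      rw [coeff_sub, cs, cAu]
    have h2 : ((a₁ * a₂ - C A * (b₁ * b₂)) ^ 2).natDegree ≤ (d₁ + d₂) + (d₁ + d₂) := by
      rw [sq]
      exact natDegree_mul_le_of_le h1 h1
    have c2 : ((a₁ * a₂ - C A * (b₁ * b₂)) ^ 2).coeff ((d₁ + d₂) + (d₁ + d₂))
        = (a₁.coeff d₁ * a₂.coeff d₂ - A * (b₁.coeff d₁ * b₂.coeff d₂)) ^ 2 := by
      rw [sq, coeff_mul_add_eq_of_natDegree_le h1 h1, c1, sq]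
    have e3 : 4 * C B * (a₁ * b₂ + a₂ * b₁) * (b₁ * b₂)
        = C (4 * B) * ((a₁ * b₂ + a₂ * b₁) * (b₁ * b₂)) := by
      rw [C_four_mul, mul_assoc]
    have h3 : (4 * C B * (a₁ * b₂ + a₂ * b₁) * (b₁ * b₂)).natDegree ≤ (d₁ + d₂) + (d₁ + d₂) := by
      rw [e3]
      exact (natDegree_C_mul_le _ _).trans (natDegree_mul_le_of_le ht hu)
    have c3 : (4 * C B * (a₁ * b₂ + a₂ * b₁) * (b₁ * b₂)).coeff ((d₁ + d₂) + (d₁ + d₂))
        = 4 * B * (a₁.coeff d₁ * b₂.coeff d₂ + a₂.coeff d₂ * b₁.coeff d₁)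
          * (b₁.coeff d₁ * b₂.coeff d₂) := by
      rw [e3, coeff_C_mul, coeff_mul_add_eq_of_natDegree_le ht hu, ct, cu]
      ring
    constructor
    · have := natDegree_sub_le_of_le h2 h3
      rw [max_self] at this
      exact this
    · unfold wP
      rw [coeff_sub, c2, c3]
  · -- wS
    have h1 : (a₁ * a₂ + C A * (b₁ * b₂)).natDegree ≤ d₁ + d₂ :=
      natDegree_add_le_of_degree_le hs hAu
    have c1 : (a₁ * a₂ + C A * (b₁ * b₂)).coeff (d₁ + d₂)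
        = a₁.coeff d₁ * a₂.coeff d₂ + A * (b₁.coeff d₁ * b₂.coeff d₂) := by
      rw [coeff_add, cs, cAu]
    have e2 : 2 * (a₁ * b₂ + a₂ * b₁) * (a₁ * a₂ + C A * (b₁ * b₂))
        = C 2 * ((a₁ * b₂ + a₂ * b₁) * (a₁ * a₂ + C A * (b₁ * b₂))) := by
      rw [mul_assoc]
      rfl
    have h2 : (2 * (a₁ * b₂ + a₂ * b₁) * (a₁ * a₂ + C A * (b₁ * b₂))).natDegree
        ≤ (d₁ + d₂) + (d₁ + d₂) := by
      rw [e2]
      exact (natDegree_C_mul_le _ _).trans (natDegree_mul_le_of_le ht h1)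
    have c2 : (2 * (a₁ * b₂ + a₂ * b₁) * (a₁ * a₂ + C A * (b₁ * b₂))).coeff
        ((d₁ + d₂) + (d₁ + d₂))
        = 2 * (a₁.coeff d₁ * b₂.coeff d₂ + a₂.coeff d₂ * b₁.coeff d₁)
          * (a₁.coeff d₁ * a₂.coeff d₂ + A * (b₁.coeff d₁ * b₂.coeff d₂)) := by
      rw [e2, coeff_C_mul, coeff_mul_add_eq_of_natDegree_le ht h1, ct, c1, mul_assoc]
    have e3 : 4 * C B * (b₁ * b₂) ^ 2 = C (4 * B) * ((b₁ * b₂) * (b₁ * b₂)) := by
      rw [C_four_mul, sq]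
    have h3 : (4 * C B * (b₁ * b₂) ^ 2).natDegree ≤ (d₁ + d₂) + (d₁ + d₂) := by
      rw [e3]
      exact (natDegree_C_mul_le _ _).trans (natDegree_mul_le_of_le hu hu)
    have c3 : (4 * C B * (b₁ * b₂) ^ 2).coeff ((d₁ + d₂) + (d₁ + d₂))
        = 4 * B * (b₁.coeff d₁ * b₂.coeff d₂) ^ 2 := by
      rw [e3, coeff_C_mul, coeff_mul_add_eq_of_natDegree_le hu hu, cu, sq]
    constructor
    · exact natDegree_add_le_of_degree_le h2 h3
    · unfold wS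
      rw [coeff_add, c2, c3]
  · -- wD
    have h1 : (a₁ * b₂ - a₂ * b₁).natDegree ≤ d₁ + d₂ := by
      have := natDegree_sub_le_of_le h12 h21
      rwa [max_self] at this
    have c1 : (a₁ * b₂ - a₂ * b₁).coeff (d₁ + d₂)
        = a₁.coeff d₁ * b₂.coeff d₂ - a₂.coeff d₂ * b₁.coeff d₁ := by
      rw [coeff_sub, c12, c21]
    constructor
    · unfold wD
      rw [sq]
      exact natDegree_mul_le_of_le h1 h1
    · unfold wD
      rw [sq, coeff_mul_add_eq_of_natDegree_le h1 h1, c1, sq]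

lemma tdeg_forms (h2 : (2 : k) ≠ 0) {A B : k} (hΔ : 4 * A ^ 3 + 27 * B ^ 2 ≠ 0)
    {a₁ b₁ a₂ b₂ : k[X]} (h₁ : a₁ ≠ 0 ∨ b₁ ≠ 0) (h₂ : a₂ ≠ 0 ∨ b₂ ≠ 0) :
    tdeg (wP (C A) (C B) a₁ b₁ a₂ b₂) (wS (C A) (C B) a₁ b₁ a₂ b₂) (wD a₁ b₁ a₂ b₂)
      = 2 * (pht a₁ b₁ + pht a₂ b₂) := by
  obtain ⟨⟨hP, cP⟩, ⟨hS, cS⟩, ⟨hD, cD⟩⟩ :=
    top_forms (natDegree_le_pht_left a₁ b₁) (natDegree_le_pht_right a₁ b₁)
      (natDegree_le_pht_left a₂ b₂) (natDegree_le_pht_right a₂ b₂) A B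
  rw [two_mul]
  apply tdeg_eq_of_top hP hS hD
  rintro ⟨h1, h2', h3⟩
  rw [cP] at h1
  rw [cS] at h2'
  rw [cD] at h3
  exact no_common_zero h2 hΔ (top_ne h₁) (top_ne h₂) h1 h2' h3

/-- **Projective parallelogram law** for heights of `x`-coordinates on `y² = x³ + A x + B`. -/
theorem pht_add_sub (h2 : (2 : k) ≠ 0) {A B : k} (hΔ : 4 * A ^ 3 + 27 * B ^ 2 ≠ 0)
    {a₁ b₁ a₂ b₂ a₃ b₃ a₄ b₄ : k[X]} (h₁ : IsCoprime a₁ b₁) (h₂ : IsCoprime a₂ b₂)
    (h₃ : IsCoprime a₃ b₃) (h₄ : IsCoprime a₄ b₄) {lam mu : k[X]} (hmu : mu ≠ 0)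
    (hP : lam * wP (C A) (C B) a₁ b₁ a₂ b₂ = mu * (a₃ * a₄))
    (hS : lam * wS (C A) (C B) a₁ b₁ a₂ b₂ = mu * (a₃ * b₄ + a₄ * b₃))
    (hD : lam * wD a₁ b₁ a₂ b₂ = mu * (b₃ * b₄)) :
    pht a₃ b₃ + pht a₄ b₄ = 2 * pht a₁ b₁ + 2 * pht a₂ b₂ := by
  have hu2 : IsUnit (2 : k[X]) := by
    have : (2 : k[X]) = C 2 := rfl
    rw [this, isUnit_C]
    exact h2.isUnit
  have huΔ : IsUnit (4 * (C A) ^ 3 + 27 * (C B) ^ 2 : k[X]) := by
    have : (4 * (C A) ^ 3 + 27 * (C B) ^ 2 : k[X]) = C (4 * A ^ 3 + 27 * B ^ 2) := by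
      simp only [map_add, map_mul, map_pow]
      rfl
    rw [this, isUnit_C]
    exact hΔ.isUnit
  obtain ⟨α, β, γ, hU⟩ := forms_unimodular hu2 huΔ h₁ h₂
  obtain ⟨α', β', γ', hV⟩ := prod_unimodular h₃ h₄
  have e1 : lam = mu * (α * (a₃ * a₄) + β * (a₃ * b₄ + a₄ * b₃) + γ * (b₃ * b₄)) := by
    calc lam = lam * (α * wP (C A) (C B) a₁ b₁ a₂ b₂ + β * wS (C A) (C B) a₁ b₁ a₂ b₂
          + γ * wD a₁ b₁ a₂ b₂) := by rw [hU, mul_one]
      _ = α * (lam * wP (C A) (C B) a₁ b₁ a₂ b₂) + β * (lam * wS (C A) (C B) a₁ b₁ a₂ b₂)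
          + γ * (lam * wD a₁ b₁ a₂ b₂) := by ring
      _ = mu * (α * (a₃ * a₄) + β * (a₃ * b₄ + a₄ * b₃) + γ * (b₃ * b₄)) := by
          rw [hP, hS, hD]; ring
  have e2 : mu = lam * (α' * wP (C A) (C B) a₁ b₁ a₂ b₂ + β' * wS (C A) (C B) a₁ b₁ a₂ b₂
      + γ' * wD a₁ b₁ a₂ b₂) := by
    calc mu = mu * (α' * (a₃ * a₄) + β' * (a₃ * b₄ + a₄ * b₃) + γ' * (b₃ * b₄)) := by
          rw [hV, mul_one]
      _ = α' * (mu * (a₃ * a₄)) + β' * (mu * (a₃ * b₄ + a₄ * b₃)) + γ' * (mu * (b₃ * b₄)) := by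
          ring
      _ = lam * (α' * wP (C A) (C B) a₁ b₁ a₂ b₂ + β' * wS (C A) (C B) a₁ b₁ a₂ b₂
          + γ' * wD a₁ b₁ a₂ b₂) := by
          rw [← hP, ← hS, ← hD]; ring
  obtain ⟨c, hc⟩ : ∃ c, c = α * (a₃ * a₄) + β * (a₃ * b₄ + a₄ * b₃) + γ * (b₃ * b₄) := ⟨_, rfl⟩
  obtain ⟨c', hc'⟩ : ∃ c', c' = α' * wP (C A) (C B) a₁ b₁ a₂ b₂
      + β' * wS (C A) (C B) a₁ b₁ a₂ b₂ + γ' * wD a₁ b₁ a₂ b₂ := ⟨_, rfl⟩
  rw [← hc] at e1
  rw [← hc'] at e2
  have hcc : c * c' = 1 := by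
    have h : mu * (c * c') = mu * 1 := by
      rw [mul_one, ← mul_assoc, ← e1, ← e2]
    exact mul_left_cancel₀ hmu h
  have hcu : IsUnit c := IsUnit.of_mul_eq_one _ hcc
  obtain ⟨c₀, hc₀, hcc₀⟩ := Polynomial.isUnit_iff.mp hcu
  have hc₀' : c₀ ≠ 0 := hc₀.ne_zero
  rw [← hcc₀] at e1
  have eP : a₃ * a₄ = C c₀ * wP (C A) (C B) a₁ b₁ a₂ b₂ := by
    apply mul_left_cancel₀ hmu
    rw [← hP, e1]
    ring
  have eS : a₃ * b₄ + a₄ * b₃ = C c₀ * wS (C A) (C B) a₁ b₁ a₂ b₂ := by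
    apply mul_left_cancel₀ hmu
    rw [← hS, e1]
    ring
  have eD : b₃ * b₄ = C c₀ * wD a₁ b₁ a₂ b₂ := by
    apply mul_left_cancel₀ hmu
    rw [← hD, e1]
    ring
  have hdeg : tdeg (a₃ * a₄) (a₃ * b₄ + a₄ * b₃) (b₃ * b₄)
      = tdeg (wP (C A) (C B) a₁ b₁ a₂ b₂) (wS (C A) (C B) a₁ b₁ a₂ b₂) (wD a₁ b₁ a₂ b₂) := by
    rw [eP, eS, eD]
    unfold tdeg
    rw [natDegree_C_mul hc₀', natDegree_C_mul hc₀', natDegree_C_mul hc₀']
  rw [tdeg_prod (ne_of_isCoprime h₃) (ne_of_isCoprime h₄),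
    tdeg_forms h2 hΔ (ne_of_isCoprime h₁) (ne_of_isCoprime h₂)] at hdeg
  rw [hdeg]
  ring

end degree

/-! ## Rational functions -/

section ratfunc

variable {k : Type*} [Field k]

/-- height of a rational function: the maximum of the degrees of numerator and denominator -/
noncomputable def ht (X : RatFunc k) : ℕ := pht X.num X.denom

lemma ht_eq (X : RatFunc k) : ht X = max X.num.natDegree X.denom.natDegree := rfl

/-- **Parallelogram law**, generic case: if `X₃, X₄` are the `x`-coordinates of `P ± Q` for points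
with `x`-coordinates `X₁ ≠ X₂` on `y² = x³ + A x + B`, then `ht X₃ + ht X₄ = 2 ht X₁ + 2 ht X₂`. -/
theorem ht_add_sub (h2 : (2 : k) ≠ 0) {A B : k} (hΔ : 4 * A ^ 3 + 27 * B ^ 2 ≠ 0)
    {X₁ X₂ X₃ X₄ : RatFunc k} (hne : X₁ ≠ X₂)
    (hsum : (X₃ + X₄) * (X₁ - X₂) ^ 2
      = 2 * (X₁ + X₂) * (X₁ * X₂ + RatFunc.C A) + 4 * RatFunc.C B)
    (hprod : X₃ * X₄ * (X₁ - X₂) ^ 2
      = (X₁ * X₂ - RatFunc.C A) ^ 2 - 4 * RatFunc.C B * (X₁ + X₂)) :
    ht X₃ + ht X₄ = 2 * ht X₁ + 2 * ht X₂ := by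
  have hinj : Function.Injective (algebraMap k[X] (RatFunc k)) :=
    IsFractionRing.injective k[X] (RatFunc k)
  have e : ∀ X : RatFunc k,
      X = algebraMap k[X] (RatFunc k) X.num / algebraMap k[X] (RatFunc k) X.denom :=
    fun X => (RatFunc.num_div_denom X).symm
  have hb : ∀ X : RatFunc k, algebraMap k[X] (RatFunc k) X.denom ≠ 0 := fun X =>
    (map_ne_zero_iff _ hinj).mpr (RatFunc.denom_ne_zero X)
  have hC : ∀ c : k, algebraMap k[X] (RatFunc k) (Polynomial.C c) = RatFunc.C c :=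
    fun c => RatFunc.algebraMap_C c
  have hb₁ := hb X₁
  have hb₂ := hb X₂
  have hb₃ := hb X₃
  have hb₄ := hb X₄
  rw [e X₁, e X₂, e X₃, e X₄] at hsum hprod
  have hne' : algebraMap k[X] (RatFunc k) X₁.num * algebraMap k[X] (RatFunc k) X₂.denom
      - algebraMap k[X] (RatFunc k) X₂.num * algebraMap k[X] (RatFunc k) X₁.denom ≠ 0 := by
    intro h0
    apply hne
    rw [e X₁, e X₂, div_eq_div_iff hb₁ hb₂]
    exact sub_eq_zero.mp h0
  refine pht_add_sub h2 hΔ (RatFunc.isCoprime_num_denom X₁) (RatFunc.isCoprime_num_denom X₂)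
    (RatFunc.isCoprime_num_denom X₃) (RatFunc.isCoprime_num_denom X₄)
    (lam := X₃.denom * X₄.denom) (mu := wD X₁.num X₁.denom X₂.num X₂.denom) ?_ ?_ ?_ ?_
  · intro h0
    have h1 := congrArg (algebraMap k[X] (RatFunc k)) h0
    rw [map_wD, map_zero] at h1
    exact hne' ((pow_eq_zero_iff (two_ne_zero)).mp h1)
  · apply hinj
    simp only [map_mul, map_wP, map_wD, hC]
    generalize algebraMap k[X] (RatFunc k) X₁.num = α₁ at *
    generalize algebraMap k[X] (RatFunc k) X₁.denom = β₁ at *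
    generalize algebraMap k[X] (RatFunc k) X₂.num = α₂ at *
    generalize algebraMap k[X] (RatFunc k) X₂.denom = β₂ at *
    generalize algebraMap k[X] (RatFunc k) X₃.num = α₃ at *
    generalize algebraMap k[X] (RatFunc k) X₃.denom = β₃ at *
    generalize algebraMap k[X] (RatFunc k) X₄.num = α₄ at *
    generalize algebraMap k[X] (RatFunc k) X₄.denom = β₄ at *
    unfold wP wD
    field_simp at hprod
    linear_combination -hprod
  · apply hinj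
    simp only [map_mul, map_add, map_wS, map_wD, hC]
    generalize algebraMap k[X] (RatFunc k) X₁.num = α₁ at *
    generalize algebraMap k[X] (RatFunc k) X₁.denom = β₁ at *
    generalize algebraMap k[X] (RatFunc k) X₂.num = α₂ at *
    generalize algebraMap k[X] (RatFunc k) X₂.denom = β₂ at *
    generalize algebraMap k[X] (RatFunc k) X₃.num = α₃ at *
    generalize algebraMap k[X] (RatFunc k) X₃.denom = β₃ at *
    generalize algebraMap k[X] (RatFunc k) X₄.num = α₄ at *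
    generalize algebraMap k[X] (RatFunc k) X₄.denom = β₄ at *
    unfold wS wD
    field_simp at hsum
    linear_combination -hsum
  · ring

/-- **Parallelogram law**, doubling case: if `X'` is the `x`-coordinate of `2P` for a point `P`
with `x`-coordinate `X` (and `2P ≠ 0`), then `ht X' = 4 ht X`. -/
theorem ht_dbl (h2 : (2 : k) ≠ 0) {A B : k} (hΔ : 4 * A ^ 3 + 27 * B ^ 2 ≠ 0)
    {X X' : RatFunc k} (hf : X ^ 3 + RatFunc.C A * X + RatFunc.C B ≠ 0)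
    (hdbl : X' * (4 * (X ^ 3 + RatFunc.C A * X + RatFunc.C B))
      = X ^ 4 - 2 * RatFunc.C A * X ^ 2 - 8 * RatFunc.C B * X + RatFunc.C A ^ 2) :
    ht X' = 4 * ht X := by
  have hinj : Function.Injective (algebraMap k[X] (RatFunc k)) :=
    IsFractionRing.injective k[X] (RatFunc k)
  have e : ∀ X : RatFunc k,
      X = algebraMap k[X] (RatFunc k) X.num / algebraMap k[X] (RatFunc k) X.denom :=
    fun X => (RatFunc.num_div_denom X).symm
  have hb : ∀ X : RatFunc k, algebraMap k[X] (RatFunc k) X.denom ≠ 0 := fun X =>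
    (map_ne_zero_iff _ hinj).mpr (RatFunc.denom_ne_zero X)
  have hC : ∀ c : k, algebraMap k[X] (RatFunc k) (Polynomial.C c) = RatFunc.C c :=
    fun c => RatFunc.algebraMap_C c
  have hb₁ := hb X
  have hb₃ := hb X'
  have h4 : (4 : RatFunc k) ≠ 0 := by
    have h44 : (4 : RatFunc k) = RatFunc.C (4 : k) := (map_ofNat RatFunc.C 4).symm
    rw [h44]
    refine (map_ne_zero_iff _ (RatFunc.C (K := k)).injective).mpr ?_
    have h22 : (4 : k) = 2 * 2 := by norm_num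
    rw [h22]
    exact mul_ne_zero h2 h2
  rw [e X] at hf
  rw [e X, e X'] at hdbl
  have key : pht X'.num X'.denom + pht (1 : k[X]) 0
      = 2 * pht X.num X.denom + 2 * pht X.num X.denom := by
    refine pht_add_sub h2 hΔ (RatFunc.isCoprime_num_denom X) (RatFunc.isCoprime_num_denom X)
      (RatFunc.isCoprime_num_denom X') (isCoprime_one_left : IsCoprime (1 : k[X]) 0)
      (lam := X'.denom) (mu := wS (C A) (C B) X.num X.denom X.num X.denom) ?_ ?_ ?_ ?_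
    · intro h0
      apply hf
      have h1 := congrArg (algebraMap k[X] (RatFunc k)) h0
      simp only [map_wS, hC, map_zero] at h1
      generalize algebraMap k[X] (RatFunc k) X.num = α at *
      generalize algebraMap k[X] (RatFunc k) X.denom = β at *
      unfold wS at h1
      have h5 : 4 * β ^ 4 * ((α / β) ^ 3 + RatFunc.C A * (α / β) + RatFunc.C B) = 0 := by
        field_simp
        linear_combination h1
      exact (mul_eq_zero.mp h5).resolve_left (mul_ne_zero h4 (pow_ne_zero 4 hb₁))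
    · apply hinj
      simp only [map_mul, map_wP, map_wS, hC, map_one]
      generalize algebraMap k[X] (RatFunc k) X.num = α at *
      generalize algebraMap k[X] (RatFunc k) X.denom = β at *
      generalize algebraMap k[X] (RatFunc k) X'.num = α' at *
      generalize algebraMap k[X] (RatFunc k) X'.denom = β' at *
      unfold wP wS
      field_simp at hdbl
      linear_combination -hdbl
    · ring
    · simp [wD]
  have h10 : pht (1 : k[X]) 0 = 0 := by simp [pht]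
  rw [h10] at key
  unfold ht
  omega

end ratfunc

end Fermat.Agent.S52.B.H7515
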