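import Mathlib

set_option autoImplicit false

/-!
# Manin's count (package B of S52, helper7085)

For `f = X³ + A X + B` over `ZMod l` with nonzero discriminant, the rational function
`f (f^((l-1)/2) + 1)² / (X^l - X)² - (X^l + X)` (the `x`-coordinate of `Frob(P) - P` for the generic
point) has height `max (deg num) (deg denom)` equal to the number of points of
`y² = x³ + A x + B` over `ZMod l` (including the point at infinity).
-/

namespace Fermat.Agent.S52.B.Manin7085

open Polynomial

section General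

variable {K : Type*} [Field K]

/-- The height of a rational function: `max (deg num) (deg denom)`. -/
noncomputable def rdeg (r : RatFunc K) : ℕ := max r.num.natDegree r.denom.natDegree

lemma natDegree_num_denom_of_isCoprime {p q : K[X]} (hp : p ≠ 0) (hq : q ≠ 0)
    (h : IsCoprime p q) :
    (algebraMap K[X] (RatFunc K) p / algebraMap K[X] (RatFunc K) q).num.natDegree = p.natDegree ∧
    (algebraMap K[X] (RatFunc K) p / algebraMap K[X] (RatFunc K) q).denom.natDegree
      = q.natDegree := by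
  obtain ⟨x, hx⟩ : ∃ x : RatFunc K,
      x = algebraMap K[X] (RatFunc K) p / algebraMap K[X] (RatFunc K) q := ⟨_, rfl⟩
  rw [← hx]
  have e : x.num * q = p * x.denom := (RatFunc.num_mul_eq_mul_denom_iff hq).mpr hx
  have hc := x.isCoprime_num_denom
  have hx0 : x ≠ 0 := by
    rw [hx]
    exact div_ne_zero (RatFunc.algebraMap_ne_zero hp) (RatFunc.algebraMap_ne_zero hq)
  have hn0 : x.num ≠ 0 := RatFunc.num_ne_zero hx0
  have hd0 : x.denom ≠ 0 := x.denom_ne_zero
  have h1 : x.num ∣ p := hc.dvd_of_dvd_mul_right (Dvd.intro _ e)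
  have h2 : p ∣ x.num := h.dvd_of_dvd_mul_right (Dvd.intro _ e.symm)
  have h3 : x.denom ∣ q := hc.symm.dvd_of_dvd_mul_left (Dvd.intro_left _ e.symm)
  have h4 : q ∣ x.denom := h.symm.dvd_of_dvd_mul_left (Dvd.intro_left _ e)
  exact ⟨le_antisymm (natDegree_le_of_dvd h1 hp) (natDegree_le_of_dvd h2 hn0),
    le_antisymm (natDegree_le_of_dvd h3 hq) (natDegree_le_of_dvd h4 hd0)⟩

/-- Height of `g n / g h` for coprime `n`, `h`. -/
lemma rdeg_div_of_isCoprime {g n h : K[X]} (hg : g ≠ 0) (hn : n ≠ 0) (hh : h ≠ 0)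
    (hc : IsCoprime n h) :
    rdeg (algebraMap K[X] (RatFunc K) (g * n) / algebraMap K[X] (RatFunc K) (g * h))
      = max n.natDegree h.natDegree := by
  have e : algebraMap K[X] (RatFunc K) (g * n) / algebraMap K[X] (RatFunc K) (g * h)
      = algebraMap K[X] (RatFunc K) n / algebraMap K[X] (RatFunc K) h := by
    rw [map_mul, map_mul, mul_div_mul_left _ _ (RatFunc.algebraMap_ne_zero hg)]
  rw [e, rdeg]
  obtain ⟨h1, h2⟩ := natDegree_num_denom_of_isCoprime hn hh hc
  rw [h1, h2]

lemma natDegree_X_pow_add' {R : Type*} [Ring R] [Nontrivial R] {p : R[X]} {n : ℕ}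
    (h : p.natDegree < n) : (X ^ n + p).natDegree = n := by
  rw [add_comm]
  exact (natDegree_add_eq_right_of_natDegree_lt (by rwa [natDegree_X_pow])).trans
    (natDegree_X_pow n)

lemma isCoprime_X_sub_C_of_eval_ne_zero {p : K[X]} {c : K} (h : p.eval c ≠ 0) :
    IsCoprime p (X - C c) := by
  have hirr : Irreducible (X - C c) := irreducible_X_sub_C c
  refine (hirr.coprime_iff_not_dvd.mpr ?_).symm
  rw [dvd_iff_isRoot]
  exact h

lemma isCoprime_prod_X_sub_C {p : K[X]} {s : Finset K} (h : ∀ c ∈ s, p.eval c ≠ 0) :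
    IsCoprime p (∏ c ∈ s, (X - C c)) :=
  IsCoprime.prod_right fun c hc => isCoprime_X_sub_C_of_eval_ne_zero (h c hc)

lemma prod_X_sub_C_dvd {p : K[X]} {s : Finset K} (h : ∀ c ∈ s, p.eval c = 0) :
    (∏ c ∈ s, (X - C c)) ∣ p := by
  refine Finset.prod_dvd_of_coprime ?_ ?_
  · intro a _ b _ hab
    exact isCoprime_X_sub_C_of_isUnit_sub (sub_ne_zero.mpr hab).isUnit
  · intro c hc
    rw [dvd_iff_isRoot]
    exact h c hc

end General

section Cubic

variable {l : ℕ} [Fact l.Prime]

/-- The cubic `X³ + A X + B`. -/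
noncomputable def cub (A B : ZMod l) : (ZMod l)[X] := X ^ 3 + C A * X + C B

lemma cub_eval (A B c : ZMod l) : (cub A B).eval c = c ^ 3 + A * c + B := by
  simp [cub]

lemma cub_natDegree (A B : ZMod l) : (cub A B).natDegree = 3 := by
  rw [cub]
  compute_degree!

lemma cub_ne_zero (A B : ZMod l) : cub A B ≠ 0 := by
  intro h
  have := cub_natDegree A B
  rw [h] at this
  simp at this

lemma cub_derivative (A B : ZMod l) : derivative (cub A B) = C 3 * X ^ 2 + C A := by
  rw [cub, derivative_add, derivative_add, derivative_X_pow, derivative_C_mul, derivative_X,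
    derivative_C]
  simp

lemma cub_derivative_eval (A B c : ZMod l) :
    (derivative (cub A B)).eval c = 3 * c ^ 2 + A := by
  rw [cub_derivative]
  simp

/-- Frobenius on the cubic. -/
lemma cub_pow_l (A B : ZMod l) : cub A B ^ l = X ^ (3 * l) + C A * X ^ l + C B := by
  rw [cub, add_pow_char, add_pow_char, mul_pow, ← C_pow, ← C_pow, ZMod.pow_card, ZMod.pow_card,
    ← pow_mul]

/-- No double root. -/
lemma cub_not_sq_dvd {A B : ZMod l} (hΔ : 4 * A ^ 3 + 27 * B ^ 2 ≠ 0) (c : ZMod l) :
    ¬ (X - C c) ^ 2 ∣ cub A B := by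
  rintro ⟨w, hw⟩
  have hw' : cub A B = (X - C c) * ((X - C c) * w) := by rw [hw]; ring
  have h0 : (cub A B).eval c = 0 := by rw [hw']; simp
  have h1 : (derivative (cub A B)).eval c = 0 := by
    rw [hw', derivative_mul]
    simp
  rw [cub_eval] at h0
  rw [cub_derivative_eval] at h1
  apply hΔ
  linear_combination (27 * B - 18 * A * c) * h0 + (4 * A ^ 2 - 9 * B * c + 6 * A * c ^ 2) * h1

end Cubic

section Numerator

variable {l : ℕ} [Fact l.Prime]

/-- Manin's numerator. -/
noncomputable def mNum (A B : ZMod l) : (ZMod l)[X] :=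
  cub A B * (cub A B ^ ((l - 1) / 2) + 1) ^ 2 - (X ^ l + X) * (X ^ l - X) ^ 2

variable (l) in
lemma prod_X_sub_C_univ : ∏ c : ZMod l, (X - C c) = (X ^ l - X : (ZMod l)[X]) := by
  have hl : l.Prime := Fact.out
  have h1 : (∏ c : ZMod l, (X - C c)) ∣ (X ^ l - X : (ZMod l)[X]) :=
    prod_X_sub_C_dvd (fun c _ => by simp [ZMod.pow_card])
  have hm1 : (∏ c : ZMod l, (X - C c)).Monic :=
    monic_prod_of_monic _ _ fun c _ => monic_X_sub_C c
  have hm2 : (X ^ l - X : (ZMod l)[X]).Monic := monic_X_pow_sub (by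
    rw [degree_X]
    exact_mod_cast hl.one_lt)
  have hd : (X ^ l - X : (ZMod l)[X]).natDegree ≤ (∏ c : ZMod l, (X - C c)).natDegree := by
    have h2 : (X ^ l - X : (ZMod l)[X]).natDegree = l := by
      rw [sub_eq_add_neg]
      exact natDegree_X_pow_add' (by rw [natDegree_neg, natDegree_X]; exact hl.one_lt)
    rw [h2, natDegree_prod_of_monic _ _ (fun c _ => monic_X_sub_C c)]
    simp [ZMod.card]
  exact (eq_of_monic_of_dvd_of_natDegree_le hm1 hm2 h1 hd).symm

/-- Manin's denominator. -/
noncomputable def mDen (l : ℕ) : (ZMod l)[X] := (X ^ l - X) ^ 2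

omit [Fact l.Prime] in
lemma odd_decomp (hl2 : l ≠ 2) (hl : l.Prime) : l = 2 * ((l - 1) / 2) + 1 := by
  have := hl.odd_of_ne_two hl2
  obtain ⟨k, hk⟩ := this
  omega

lemma half_pos (hl2 : l ≠ 2) : 0 < (l - 1) / 2 := by
  have hl : l.Prime := Fact.out
  have := odd_decomp hl2 hl
  have := hl.two_le
  omega

/-- The lower-order part of Manin's numerator. -/
noncomputable def mRest (A B : ZMod l) : (ZMod l)[X] :=
  X ^ (l + 2) + C A * X ^ l + C 2 * cub A B ^ ((l - 1) / 2 + 1) + C A * X + C 2 * C B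

lemma mNum_eq (hl2 : l ≠ 2) (A B : ZMod l) : mNum A B = X ^ (2 * l + 1) + mRest A B := by
  have hl : l.Prime := Fact.out
  have hodd := odd_decomp hl2 hl
  have e : cub A B ^ l = cub A B ^ (2 * ((l - 1) / 2) + 1) :=
    congrArg (fun n => cub A B ^ n) hodd
  have h1 : cub A B * (cub A B ^ ((l - 1) / 2) + 1) ^ 2
      = cub A B ^ l + 2 * cub A B ^ ((l - 1) / 2 + 1) + cub A B := by
    rw [e]
    ring
  have e2 : (C 2 : (ZMod l)[X]) = 2 := map_ofNat C 2
  rw [mNum, h1, cub_pow_l, mRest, e2]
  simp only [cub]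
  ring

lemma mRest_natDegree_le (hl2 : l ≠ 2) (A B : ZMod l) : (mRest A B).natDegree ≤ 2 * l := by
  have hl : l.Prime := Fact.out
  have hodd := odd_decomp hl2 hl
  have h2 := hl.two_le
  have hc : (cub A B ^ ((l - 1) / 2 + 1)).natDegree ≤ 2 * l := by
    calc (cub A B ^ ((l - 1) / 2 + 1)).natDegree
        ≤ ((l - 1) / 2 + 1) * (cub A B).natDegree := natDegree_pow_le
      _ ≤ 2 * l := by rw [cub_natDegree]; omega
  rw [mRest]
  refine natDegree_add_le_of_degree_le (natDegree_add_le_of_degree_le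
    (natDegree_add_le_of_degree_le (natDegree_add_le_of_degree_le ?_ ?_) ?_) ?_) ?_
  · exact (natDegree_X_pow_le _).trans (by omega)
  · exact (natDegree_C_mul_X_pow_le _ _).trans (by omega)
  · exact (natDegree_C_mul_le _ _).trans hc
  · exact (natDegree_C_mul_le _ _).trans (natDegree_X_le.trans (by omega))
  · exact (natDegree_C_mul_le _ _).trans (by simp)

lemma mNum_monic (hl2 : l ≠ 2) (A B : ZMod l) : (mNum A B).Monic := by
  rw [mNum_eq hl2]
  exact monic_X_pow_add (lt_of_le_of_lt degree_le_natDegree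
    (by exact_mod_cast Nat.lt_succ_of_le (mRest_natDegree_le hl2 A B)))

lemma mNum_natDegree (hl2 : l ≠ 2) (A B : ZMod l) : (mNum A B).natDegree = 2 * l + 1 := by
  rw [mNum_eq hl2]
  exact natDegree_X_pow_add' (Nat.lt_succ_of_le (mRest_natDegree_le hl2 A B))

lemma mDen_monic : (mDen l).Monic := by
  have hl : l.Prime := Fact.out
  exact (monic_X_pow_sub (by
    rw [degree_X]
    exact_mod_cast hl.one_lt)).pow 2

lemma mDen_natDegree : (mDen l).natDegree = 2 * l := by
  have hl : l.Prime := Fact.out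
  have h1 : (X ^ l - X : (ZMod l)[X]).Monic := monic_X_pow_sub (by
    rw [degree_X]
    exact_mod_cast hl.one_lt)
  have h2 : (X ^ l - X : (ZMod l)[X]).natDegree = l := by
    rw [sub_eq_add_neg]
    exact natDegree_X_pow_add' (by rw [natDegree_neg, natDegree_X]; exact hl.one_lt)
  rw [mDen, h1.natDegree_pow, h2]

end Numerator

section Factor

variable {l : ℕ} [Fact l.Prime]

lemma two_ne_zero_zmod (hl2 : l ≠ 2) : (2 : ZMod l) ≠ 0 := by
  have hl : l.Prime := Fact.out
  intro h
  have h' : ((2 : ℕ) : ZMod l) = 0 := by exact_mod_cast h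
  rw [ZMod.natCast_eq_zero_iff] at h'
  exact hl2 ((Nat.prime_dvd_prime_iff_eq hl Nat.prime_two).mp h')

lemma one_ne_neg_one_zmod (hl2 : l ≠ 2) : (1 : ZMod l) ≠ -1 := by
  intro h
  apply two_ne_zero_zmod hl2
  linear_combination h

lemma pow_half_cases (hl2 : l ≠ 2) {v : ZMod l} (hv : v ≠ 0) :
    v ^ ((l - 1) / 2) = 1 ∨ v ^ ((l - 1) / 2) = -1 := by
  have hl : l.Prime := Fact.out
  have e : (l - 1) / 2 = l / 2 := by
    have := odd_decomp hl2 hl
    omega
  rw [e]
  exact ZMod.pow_div_two_eq_neg_one_or_one l hv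

lemma isSquare_of_pow_half (hl2 : l ≠ 2) {v : ZMod l} (hv : v ≠ 0)
    (h : v ^ ((l - 1) / 2) = 1) : IsSquare v := by
  have hl : l.Prime := Fact.out
  have e : (l - 1) / 2 = l / 2 := by
    have := odd_decomp hl2 hl
    omega
  rw [e] at h
  exact (ZMod.euler_criterion l hv).mpr h

lemma pow_half_of_isSquare (hl2 : l ≠ 2) {v : ZMod l} (hv : v ≠ 0) (h : IsSquare v) :
    v ^ ((l - 1) / 2) = 1 := by
  have hl : l.Prime := Fact.out
  have e : (l - 1) / 2 = l / 2 := by
    have := odd_decomp hl2 hl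
    omega
  rw [e]
  exact (ZMod.euler_criterion l hv).mp h

open Classical in
/-- The multiplicity (capped at 2) of `X - c` in the gcd of numerator and denominator. -/
noncomputable def ex (A B : ZMod l) (c : ZMod l) : ℕ :=
  if (cub A B).eval c = 0 then 1
  else if (cub A B).eval c ^ ((l - 1) / 2) = -1 then 2 else 0

lemma ex_le_two (A B c : ZMod l) : ex A B c ≤ 2 := by
  unfold ex
  split_ifs <;> omega

/-- The common factor of numerator and denominator. -/
noncomputable def gPoly (A B : ZMod l) : (ZMod l)[X] := ∏ c : ZMod l, (X - C c) ^ ex A B c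

/-- The cofactor of the denominator. -/
noncomputable def hPoly (A B : ZMod l) : (ZMod l)[X] :=
  ∏ c : ZMod l, (X - C c) ^ (2 - ex A B c)

lemma gPoly_mul_hPoly (A B : ZMod l) : gPoly A B * hPoly A B = mDen l := by
  rw [gPoly, hPoly, ← Finset.prod_mul_distrib, mDen]
  have h : (X ^ l - X : (ZMod l)[X]) = ∏ c : ZMod l, (X - C c) := (prod_X_sub_C_univ l).symm
  rw [h, ← Finset.prod_pow]
  refine Finset.prod_congr rfl fun c _ => ?_
  rw [← pow_add]
  congr 1
  have := ex_le_two A B c
  omega

lemma gPoly_monic (A B : ZMod l) : (gPoly A B).Monic :=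
  monic_prod_of_monic _ _ fun c _ => (monic_X_sub_C c).pow _

lemma hPoly_monic (A B : ZMod l) : (hPoly A B).Monic :=
  monic_prod_of_monic _ _ fun c _ => (monic_X_sub_C c).pow _

lemma gPoly_natDegree (A B : ZMod l) : (gPoly A B).natDegree = ∑ c : ZMod l, ex A B c := by
  rw [gPoly, natDegree_prod_of_monic _ _ (fun c _ => (monic_X_sub_C c).pow _)]
  refine Finset.sum_congr rfl fun c _ => ?_
  rw [(monic_X_sub_C c).natDegree_pow, natDegree_X_sub_C, mul_one]

/-- The main part of the numerator. -/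
noncomputable def fPoly (A B : ZMod l) : (ZMod l)[X] :=
  cub A B * (cub A B ^ ((l - 1) / 2) + 1) ^ 2

lemma fPoly_eval (A B c : ZMod l) :
    (fPoly A B).eval c = (cub A B).eval c * ((cub A B).eval c ^ ((l - 1) / 2) + 1) ^ 2 := by
  simp [fPoly]

lemma gPoly_dvd_fPoly (A B : ZMod l) : gPoly A B ∣ fPoly A B := by
  rw [gPoly]
  refine Finset.prod_dvd_of_coprime ?_ ?_
  · intro a _ b _ hab
    exact (isCoprime_X_sub_C_of_isUnit_sub (sub_ne_zero.mpr hab).isUnit).pow
  · intro c _
    unfold ex
    split_ifs with h0 h1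
    · rw [pow_one]
      exact dvd_mul_of_dvd_left (dvd_iff_isRoot.mpr h0) _
    · refine dvd_mul_of_dvd_right (pow_dvd_pow_of_dvd (dvd_iff_isRoot.mpr ?_) 2) _
      simp [IsRoot, h1]
    · rw [pow_zero]
      exact one_dvd _

lemma fPoly_eval_ne_zero_of_ex_zero (hl2 : l ≠ 2) {A B c : ZMod l} (h : ex A B c = 0) :
    (fPoly A B).eval c ≠ 0 := by
  unfold ex at h
  split_ifs at h with h0 h1
  have h2 := (pow_half_cases hl2 h0).resolve_right h1
  rw [fPoly_eval, h2]
  have : (1 : ZMod l) + 1 ≠ 0 := by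
    have := two_ne_zero_zmod hl2
    intro h3
    apply this
    linear_combination h3
  exact mul_ne_zero h0 (pow_ne_zero 2 this)

lemma not_sq_dvd_fPoly_of_ex_one (hl2 : l ≠ 2) {A B : ZMod l}
    (hΔ : 4 * A ^ 3 + 27 * B ^ 2 ≠ 0) {c : ZMod l} (h : ex A B c = 1) :
    ¬ (X - C c) ^ 2 ∣ fPoly A B := by
  have h0 : (cub A B).eval c = 0 := by
    by_contra hne
    unfold ex at h
    rw [if_neg hne] at h
    split_ifs at h
    omega
  intro hd
  have hev : (cub A B ^ ((l - 1) / 2) + 1).eval c ≠ 0 := by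
    simp [h0, (half_pos hl2).ne']
  have hcop : IsCoprime ((X - C c) ^ 2) ((cub A B ^ ((l - 1) / 2) + 1) ^ 2) :=
    (isCoprime_X_sub_C_of_eval_ne_zero hev).symm.pow
  exact cub_not_sq_dvd hΔ c (hcop.dvd_of_dvd_mul_right hd)

theorem exists_reduced (hl2 : l ≠ 2) (A B : ZMod l) (hΔ : 4 * A ^ 3 + 27 * B ^ 2 ≠ 0) :
    ∃ n' : (ZMod l)[X], mNum A B = gPoly A B * n' ∧ IsCoprime n' (hPoly A B) := by
  obtain ⟨F', hF'⟩ := gPoly_dvd_fPoly A B
  refine ⟨F' - (X ^ l + X) * hPoly A B, ?_, ?_⟩
  · have h1 : gPoly A B * ((X ^ l + X) * hPoly A B) = (X ^ l + X) * (X ^ l - X) ^ 2 := by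
      rw [← mul_assoc, mul_comm (gPoly A B), mul_assoc, gPoly_mul_hPoly, mDen]
    rw [mul_sub, ← hF', h1, mNum, fPoly]
  · have hc : IsCoprime F' (hPoly A B) := by
      rw [hPoly]
      refine IsCoprime.prod_right fun c _ => ?_
      have hle := ex_le_two A B c
      by_cases h2 : ex A B c = 2
      · rw [h2, Nat.sub_self, pow_zero]
        exact isCoprime_one_right
      have hF'c : F'.eval c ≠ 0 := by
        by_cases h0 : ex A B c = 0
        · have := fPoly_eval_ne_zero_of_ex_zero hl2 h0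
          rw [hF', eval_mul] at this
          exact right_ne_zero_of_mul this
        · have h1 : ex A B c = 1 := by omega
          intro hz
          apply not_sq_dvd_fPoly_of_ex_one hl2 hΔ h1
          have d1 : (X - C c) ∣ gPoly A B := by
            have := Finset.dvd_prod_of_mem (fun c : ZMod l => (X - C c) ^ ex A B c)
              (Finset.mem_univ c)
            rw [h1, pow_one] at this
            exact this
          have d2 : (X - C c) ∣ F' := dvd_iff_isRoot.mpr hz
          rw [hF', pow_two]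
          exact mul_dvd_mul d1 d2
      exact IsCoprime.pow_right (isCoprime_X_sub_C_of_eval_ne_zero hF'c)
    have := hc.add_mul_right_left (-(X ^ l + X))
    have e : F' + -(X ^ l + X) * hPoly A B = F' - (X ^ l + X) * hPoly A B := by ring
    rw [e] at this
    exact this

/-- The height of Manin's rational function in terms of the multiplicities `ex`. -/
theorem rdeg_manin (hl2 : l ≠ 2) (A B : ZMod l) (hΔ : 4 * A ^ 3 + 27 * B ^ 2 ≠ 0) :
    rdeg (algebraMap (ZMod l)[X] (RatFunc (ZMod l)) (mNum A B)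
        / algebraMap (ZMod l)[X] (RatFunc (ZMod l)) (mDen l))
      + ∑ c : ZMod l, ex A B c = 2 * l + 1 := by
  obtain ⟨n', hn, hc⟩ := exists_reduced hl2 A B hΔ
  have hg0 : gPoly A B ≠ 0 := (gPoly_monic A B).ne_zero
  have hh0 : hPoly A B ≠ 0 := (hPoly_monic A B).ne_zero
  have hn0 : n' ≠ 0 := by
    rintro rfl
    rw [mul_zero] at hn
    exact (mNum_monic hl2 A B).ne_zero hn
  have d1 : (mNum A B).natDegree = (gPoly A B).natDegree + n'.natDegree := by
    rw [hn, natDegree_mul hg0 hn0]
  have d2 : (mDen l).natDegree = (gPoly A B).natDegree + (hPoly A B).natDegree := by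
    rw [← gPoly_mul_hPoly, natDegree_mul hg0 hh0]
  rw [mNum_natDegree hl2, gPoly_natDegree] at d1
  rw [mDen_natDegree, gPoly_natDegree] at d2
  rw [hn, ← gPoly_mul_hPoly A B, rdeg_div_of_isCoprime hg0 hn0 hh0 hc]
  omega

end Factor

section Count

variable {l : ℕ} [Fact l.Prime]

open Classical in
/-- The number of square roots of `f(c)` is `2 - ex c`. -/
lemma card_sqrt (hl2 : l ≠ 2) (A B c : ZMod l) :
    Fintype.card {y : ZMod l // y ^ 2 = (cub A B).eval c} = 2 - ex A B c := by
  obtain ⟨v, hv⟩ : ∃ v : ZMod l, v = (cub A B).eval c := ⟨_, rfl⟩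
  unfold ex
  rw [← hv]
  by_cases h0 : v = 0
  · rw [if_pos h0]
    subst h0
    rw [Fintype.card_eq_one_iff]
    refine ⟨⟨0, by simp⟩, fun y => Subtype.ext ?_⟩
    have := y.2
    simpa using this
  rw [if_neg h0]
  by_cases h1 : v ^ ((l - 1) / 2) = -1
  · rw [if_pos h1]
    rw [Nat.sub_self, Fintype.card_eq_zero_iff]
    refine ⟨fun y => ?_⟩
    have hsq : IsSquare v := ⟨y.1, by have := y.2; linear_combination -this⟩
    have := pow_half_of_isSquare hl2 h0 hsq
    rw [h1] at this
    exact one_ne_neg_one_zmod hl2 this.symm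
  · rw [if_neg h1]
    have h2 := (pow_half_cases hl2 h0).resolve_right h1
    obtain ⟨w, hw⟩ := isSquare_of_pow_half hl2 h0 h2
    have hw0 : w ≠ 0 := by
      rintro rfl
      apply h0
      rw [hw, mul_zero]
    have hne : w ≠ -w := by
      intro h
      have : (2 : ZMod l) * w = 0 := by linear_combination h
      rcases mul_eq_zero.mp this with h3 | h3
      · exact two_ne_zero_zmod hl2 h3
      · exact hw0 h3
    have huniv : (Finset.univ : Finset {y : ZMod l // y ^ 2 = v})
        = {⟨w, by rw [hw]; ring⟩, ⟨-w, by rw [hw]; ring⟩} := by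
      ext y
      simp only [Finset.mem_univ, Finset.mem_insert, Finset.mem_singleton, true_iff]
      have hy : (y.1 - w) * (y.1 + w) = 0 := by
        have := y.2
        linear_combination this + hw
      rcases mul_eq_zero.mp hy with h3 | h3
      · left
        exact Subtype.ext (sub_eq_zero.mp h3)
      · right
        exact Subtype.ext (eq_neg_of_add_eq_zero_left h3)
    rw [Nat.sub_zero, ← Finset.card_univ, huniv, Finset.card_pair]
    intro h
    exact hne (congrArg Subtype.val h)

/-- The short Weierstrass curve `y² = x³ + A x + B`. -/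
def shortCurve (A B : ZMod l) : WeierstrassCurve (ZMod l) := ⟨0, 0, 0, A, B⟩

lemma shortCurve_nonsingular_iff (hl2 : l ≠ 2) {A B : ZMod l} (hΔ : 4 * A ^ 3 + 27 * B ^ 2 ≠ 0)
    (x y : ZMod l) :
    (shortCurve A B).toAffine.Nonsingular x y ↔ y ^ 2 = (cub A B).eval x := by
  rw [WeierstrassCurve.Affine.nonsingular_iff', WeierstrassCurve.Affine.equation_iff, cub_eval]
  simp only [shortCurve]
  constructor
  · rintro ⟨h, -⟩
    linear_combination h
  · intro h
    refine ⟨by linear_combination h, ?_⟩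
    by_contra hcon
    rw [not_or, not_not, not_not] at hcon
    obtain ⟨h1, h2⟩ := hcon
    have hy : y = 0 := by
      have : (2 : ZMod l) * y = 0 := by linear_combination h2
      exact (mul_eq_zero.mp this).resolve_left (two_ne_zero_zmod hl2)
    subst hy
    have h0 : x ^ 3 + A * x + B = 0 := by linear_combination -h
    have h1' : 3 * x ^ 2 + A = 0 := by linear_combination -h1
    apply hΔ
    linear_combination (27 * B - 18 * A * x) * h0 + (4 * A ^ 2 - 9 * B * x + 6 * A * x ^ 2) * h1'

open Classical in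
/-- The points of the curve as an explicit sigma type. -/
noncomputable def pointEquiv (hl2 : l ≠ 2) {A B : ZMod l} (hΔ : 4 * A ^ 3 + 27 * B ^ 2 ≠ 0) :
    (shortCurve A B).toAffine.Point ≃
      Option (Σ c : ZMod l, {y : ZMod l // y ^ 2 = (cub A B).eval c}) where
  toFun P := match P with
    | .zero => none
    | .some x y h => some ⟨x, ⟨y, (shortCurve_nonsingular_iff hl2 hΔ x y).mp h⟩⟩
  invFun Q := match Q with
    | none => .zero
    | some ⟨x, ⟨y, h⟩⟩ => .some x y ((shortCurve_nonsingular_iff hl2 hΔ x y).mpr h)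
  left_inv P := by
    rcases P with _ | ⟨x, y, h⟩
    · rfl
    · rfl
  right_inv Q := by
    rcases Q with _ | ⟨x, ⟨y, h⟩⟩
    · rfl
    · rfl

open Classical in
/-- The number of points in terms of the multiplicities `ex`. -/
theorem card_points (hl2 : l ≠ 2) {A B : ZMod l} (hΔ : 4 * A ^ 3 + 27 * B ^ 2 ≠ 0) :
    Nat.card (shortCurve A B).toAffine.Point = 1 + ∑ c : ZMod l, (2 - ex A B c) := by
  rw [Nat.card_congr (pointEquiv hl2 hΔ), Nat.card_eq_fintype_card, Fintype.card_option,
    Fintype.card_sigma, add_comm]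
  congr 1
  exact Finset.sum_congr rfl fun c _ => card_sqrt hl2 A B c

/-- **Manin's count**: the height of the `x`-coordinate of `Frob(P) - P` at the generic point
equals the number of points of the curve over `ZMod l`. -/
theorem manin_count (hl2 : l ≠ 2) {A B : ZMod l} (hΔ : 4 * A ^ 3 + 27 * B ^ 2 ≠ 0) :
    rdeg (algebraMap (ZMod l)[X] (RatFunc (ZMod l)) (mNum A B)
        / algebraMap (ZMod l)[X] (RatFunc (ZMod l)) (mDen l))
      = Nat.card (shortCurve A B).toAffine.Point := by
  have h1 := rdeg_manin hl2 A B hΔ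
  have h2 := card_points hl2 hΔ
  have h3 : ∑ c : ZMod l, (2 - ex A B c) + ∑ c : ZMod l, ex A B c = 2 * l := by
    rw [← Finset.sum_add_distrib]
    have : ∀ c : ZMod l, 2 - ex A B c + ex A B c = 2 := fun c => by
      have := ex_le_two A B c
      omega
    simp only [this, Finset.sum_const, Finset.card_univ, ZMod.card, smul_eq_mul]
    ring
  omega

/-- The same statement for Manin's function written as
`f (f^((l-1)/2) + 1)² / (X^l - X)² - (X^l + X)`. -/
theorem manin_count' (hl2 : l ≠ 2) {A B : ZMod l} (hΔ : 4 * A ^ 3 + 27 * B ^ 2 ≠ 0) :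
    rdeg (algebraMap (ZMod l)[X] (RatFunc (ZMod l)) (cub A B)
          * (algebraMap (ZMod l)[X] (RatFunc (ZMod l)) (cub A B) ^ ((l - 1) / 2) + 1) ^ 2
          / (algebraMap (ZMod l)[X] (RatFunc (ZMod l)) (X ^ l - X)) ^ 2
        - algebraMap (ZMod l)[X] (RatFunc (ZMod l)) (X ^ l + X))
      = Nat.card (shortCurve A B).toAffine.Point := by
  rw [← manin_count hl2 hΔ]
  congr 1
  have hl : l.Prime := Fact.out
  have hne : algebraMap (ZMod l)[X] (RatFunc (ZMod l)) (X ^ l - X) ≠ 0 := by
    apply RatFunc.algebraMap_ne_zero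
    intro h
    have h2 : (X ^ l - X : (ZMod l)[X]).natDegree = l := by
      rw [sub_eq_add_neg]
      exact natDegree_X_pow_add' (by rw [natDegree_neg, natDegree_X]; exact hl.one_lt)
    rw [h] at h2
    simp at h2
    exact hl.ne_zero h2.symm
  rw [mNum, mDen]
  rw [map_sub, map_pow] at hne
  simp only [map_sub, map_mul, map_pow, map_add, map_one]
  field_simp

end Count

end Fermat.Agent.S52.B.Manin7085
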