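/-
S52, piece B (Frobenius relation), package P-COMP / P-RDEG (helper2412).

Degree of a rational function `r ∈ k(X)`: `rdeg r = max (deg num) (deg denom) = [k(X) : k(r)]`,
and its multiplicativity under substitution: for every `k`-algebra endomorphism `θ` of `k(X)`
(i.e. substitution `X ↦ θ X`), `rdeg (θ r) = rdeg r * rdeg (θ X)`.
Mathlib only.
-/
import Mathlib

set_option autoImplicit false

namespace Fermat.Agent.S52.B.RDeg

open IntermediateField

variable {K : Type*} [Field K]

/-- The degree of a rational function: `max (deg num) (deg denom)`. -/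
noncomputable def rdeg (r : RatFunc K) : ℕ := max r.num.natDegree r.denom.natDegree

theorem rdeg_def (r : RatFunc K) : rdeg r = max r.num.natDegree r.denom.natDegree := rfl

theorem rdeg_eq_finrank (r : RatFunc K) : rdeg r = Module.finrank K⟮r⟯ (RatFunc K) :=
  (RatFunc.finrank_eq_max_natDegree r).symm

theorem rdeg_eq_zero_iff (r : RatFunc K) : rdeg r = 0 ↔ ∃ c : K, r = RatFunc.C c := by
  rw [rdeg, Nat.max_eq_zero_iff, ← RatFunc.eq_C_iff]

@[simp] theorem rdeg_C (c : K) : rdeg (RatFunc.C c : RatFunc K) = 0 :=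
  (rdeg_eq_zero_iff _).mpr ⟨c, rfl⟩

@[simp] theorem rdeg_X : rdeg (RatFunc.X : RatFunc K) = 1 := by
  simp [rdeg]

/-- **Multiplicativity of the degree under substitution.** -/
theorem rdeg_algHom (θ : RatFunc K →ₐ[K] RatFunc K) (r : RatFunc K) :
    rdeg (θ r) = rdeg r * rdeg (θ RatFunc.X) := by
  have hle : K⟮θ r⟯ ≤ K⟮θ RatFunc.X⟯ := by
    have h1 : K⟮θ r⟯ = (K⟮r⟯).map θ := by
      rw [IntermediateField.adjoin_map, Set.image_singleton]
    have h2 : K⟮θ RatFunc.X⟯ = (⊤ : IntermediateField K (RatFunc K)).map θ := by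
      rw [← RatFunc.adjoin_X, IntermediateField.adjoin_map, Set.image_singleton]
    rw [h1, h2]
    exact IntermediateField.map_mono θ le_top
  have h1 : K⟮θ r⟯ = (K⟮r⟯).map θ := by
    rw [IntermediateField.adjoin_map, Set.image_singleton]
  have h2 : K⟮θ RatFunc.X⟯ = (⊤ : IntermediateField K (RatFunc K)).map θ := by
    rw [← RatFunc.adjoin_X, IntermediateField.adjoin_map, Set.image_singleton]
  rw [rdeg_eq_finrank, rdeg_eq_finrank, rdeg_eq_finrank,
    ← IntermediateField.relfinrank_mul_finrank_top hle]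
  congr 1
  rw [h1, h2, IntermediateField.relfinrank_map_map, IntermediateField.relfinrank_top_right]

/-- `rdeg` of a quotient of coprime polynomials. -/
theorem rdeg_div_of_isCoprime {n m : Polynomial K} (hm : m ≠ 0) (h : IsCoprime n m) :
    rdeg (algebraMap (Polynomial K) (RatFunc K) n / algebraMap (Polynomial K) (RatFunc K) m) =
      max n.natDegree m.natDegree := by
  set r : RatFunc K :=
    algebraMap (Polynomial K) (RatFunc K) n / algebraMap (Polynomial K) (RatFunc K) m with hr
  have hm' : algebraMap (Polynomial K) (RatFunc K) m ≠ 0 := RatFunc.algebraMap_ne_zero hm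
  have hd' : algebraMap (Polynomial K) (RatFunc K) r.denom ≠ 0 :=
    RatFunc.algebraMap_ne_zero r.denom_ne_zero
  have key : r.num * m = n * r.denom := by
    have h1 : algebraMap (Polynomial K) (RatFunc K) r.num /
        algebraMap (Polynomial K) (RatFunc K) r.denom =
        algebraMap (Polynomial K) (RatFunc K) n / algebraMap (Polynomial K) (RatFunc K) m := by
      rw [RatFunc.num_div_denom]
    rw [div_eq_div_iff hd' hm', ← map_mul, ← map_mul] at h1
    exact RatFunc.algebraMap_injective K h1
  have hc := r.isCoprime_num_denom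
  have d1 : n ∣ r.num := h.dvd_of_dvd_mul_right ⟨r.denom, key⟩
  have d2 : r.num ∣ n := hc.dvd_of_dvd_mul_right ⟨m, key.symm⟩
  have d3 : m ∣ r.denom := h.symm.dvd_of_dvd_mul_left ⟨r.num, by rw [← key]; ring⟩
  have d4 : r.denom ∣ m := hc.symm.dvd_of_dvd_mul_left ⟨n, by rw [key]; ring⟩
  have e1 : r.num.natDegree = n.natDegree :=
    Polynomial.natDegree_eq_of_degree_eq
      (Polynomial.degree_eq_degree_of_associated (associated_of_dvd_dvd d2 d1))
  have e2 : r.denom.natDegree = m.natDegree :=
    Polynomial.natDegree_eq_of_degree_eq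
      (Polynomial.degree_eq_degree_of_associated (associated_of_dvd_dvd d4 d3))
  rw [rdeg, e1, e2]

/-- The degree of a polynomial, viewed as a rational function. -/
theorem rdeg_algebraMap (n : Polynomial K) :
    rdeg (algebraMap (Polynomial K) (RatFunc K) n) = n.natDegree := by
  simp [rdeg]

/-- Substitution `X ↦ s` for a non-constant `s`, as a `K`-algebra endomorphism of `K(X)`. -/
noncomputable def substHom (s : RatFunc K) (hs : ¬ ∃ c : K, s = RatFunc.C c) :
    RatFunc K →ₐ[K] RatFunc K :=
  (IntermediateField.val K⟮s⟯).comp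
    (RatFunc.algEquivOfTranscendental s (RatFunc.transcendental_of_ne_C s hs)).toAlgHom

@[simp] theorem substHom_X (s : RatFunc K) (hs : ¬ ∃ c : K, s = RatFunc.C c) :
    substHom s hs RatFunc.X = s := by
  simp [substHom]

theorem substHom_apply (s : RatFunc K) (hs : ¬ ∃ c : K, s = RatFunc.C c) (r : RatFunc K) :
    substHom s hs r = Polynomial.aeval s r.num / Polynomial.aeval s r.denom :=
  RatFunc.algEquivOfTranscendental_apply s (RatFunc.transcendental_of_ne_C s hs) r

theorem rdeg_substHom (s : RatFunc K) (hs : ¬ ∃ c : K, s = RatFunc.C c) (r : RatFunc K) :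
    rdeg (substHom s hs r) = rdeg r * rdeg s := by
  rw [rdeg_algHom, substHom_X]

/-- `rdeg (r ^ n) = n * rdeg r`. -/
theorem rdeg_pow (r : RatFunc K) (n : ℕ) : rdeg (r ^ n) = n * rdeg r := by
  by_cases hr : ∃ c : K, r = RatFunc.C c
  · obtain ⟨c, rfl⟩ := hr
    rw [show (RatFunc.C c : RatFunc K) ^ n = RatFunc.C (c ^ n) from (map_pow _ _ _).symm,
      rdeg_C, rdeg_C, mul_zero]
  · have h := rdeg_substHom r hr (RatFunc.X ^ n)
    rw [map_pow, substHom_X] at h
    rw [h]
    congr 1
    have : (RatFunc.X : RatFunc K) ^ n =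
        algebraMap (Polynomial K) (RatFunc K) (Polynomial.X ^ n) := by
      rw [map_pow, RatFunc.algebraMap_X]
    rw [this, rdeg_algebraMap, Polynomial.natDegree_X_pow]

end Fermat.Agent.S52.B.RDeg
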